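import Fermat.Agent.Degen.Cor

/-!
# Hecke operators and transfer squares of the degeneracy maps

`heckeH_degH`: for a prime `ℓ` prime to both levels `T_ℓ` commutes with the degeneracy maps, by
an explicit matching `idxPerm` of the coset representatives; `transferMat_degMat` and
`degMat_jMat` are the matrix forms. `index_subG0_mul` and `degHom_mem_iff` are the index and
preimage conditions of the squares `(qᵃ N₀, qᵉ N₀; qᵃ M, qᵉ M)` over an auxiliary level `M`.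
-/

set_option autoImplicit false
set_option linter.unusedSectionVars false

open CongruenceSubgroup ModularCurve.Period
open scoped MatrixGroups
open FLTAgent.HeckeH (M2 matOf)

noncomputable section

namespace FLTAgent.Degen

section Reps

variable {G G' : Subgroup SL(2, ℤ)} {ι ι' : Type} (B : HeckeH.Reps G ι)

/-- Comparison of transfers along a homomorphism which is conjugation by `w`. -/
theorem transfer_comp_conj [Fintype ι] [Fintype ι'] (B' : HeckeH.Reps G' ι') (w : M2)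
    (hw : w.det ≠ 0) (θ : G' →* G) (hθ : ∀ γ : G', w * matOf γ = matOf (θ γ) * w)
    (e : ι' ≃ ι) (ε : ι' → G) (hβ : ∀ i, w * B'.β i = matOf (ε i) * B.β (e i) * w)
    (R : Type*) [Semiring R] {A : Type*} [AddCommGroup A] [Module R A]
    (φ : Additive G →+ A) (γ : G') :
    B.transfer R φ (Additive.ofMul (θ γ)) =
      B'.transfer R (φ.comp (MonoidHom.toAdditive θ)) (Additive.ofMul γ) := by
  have key : ∀ i, B.coc (θ γ) (e i) = (ε i)⁻¹ * θ (B'.coc γ i) * ε (B'.perm γ i) ∧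
      B.perm (θ γ) (e i) = e (B'.perm γ i) := by
    intro i
    refine B.eq_of_mul (HeckeH.mul_right_cancel_of_det_ne hw ?_)
    have h1 : w * B'.β i * matOf γ = w * matOf (B'.coc γ i) * B'.β (B'.perm γ i) := by
      rw [Matrix.mul_assoc, B'.spec γ i, ← Matrix.mul_assoc]
    rw [hβ i, hθ, Matrix.mul_assoc (matOf (ε i) * B.β (e i)) w (matOf γ), hθ γ,
      Matrix.mul_assoc (matOf (θ (B'.coc γ i))) w, hβ (B'.perm γ i)] at h1
    simp only [← Matrix.mul_assoc] at h1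
    have h2 := congrArg (fun x : M2 => matOf (ε i)⁻¹ * x) h1
    simp only [← Matrix.mul_assoc, ← HeckeH.matOf_mul, inv_mul_cancel, HeckeH.matOf_one,
      Matrix.one_mul] at h2
    rw [HeckeH.matOf_mul, HeckeH.matOf_mul]
    rw [HeckeH.matOf_mul, HeckeH.matOf_mul] at h2
    rw [← Matrix.mul_assoc (matOf (ε i)⁻¹)] at h2
    exact h2
  rw [HeckeH.Reps.transfer_apply, HeckeH.Reps.transfer_apply, ← Equiv.sum_comp e]
  simp only [(key _).1, ofMul_mul, ofMul_inv, map_add, map_neg, Finset.sum_add_distrib]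
  have hp : ∑ i, φ (Additive.ofMul (ε (B'.perm γ i))) = ∑ i, φ (Additive.ofMul (ε i)) :=
    Equiv.sum_comp (B'.permEquiv γ) (fun i => φ (Additive.ofMul (ε i)))
  rw [hp, Finset.sum_neg_distrib]
  simp [AddMonoidHom.comp_apply]

end Reps

variable {N M : ℕ}

/-- The Hecke index sets agree when `ℓ` is prime to both levels. -/
def idxPerm {ℓ : ℕ} [Fact ℓ.Prime] (d : ℕ) (hd : ¬ ℓ ∣ d) (hN : ¬ ℓ ∣ N) (hM : ¬ ℓ ∣ M) :
    HeckeH.heckeIdx M ℓ ≃ HeckeH.heckeIdx N ℓ :=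
  (HeckeH.idxEquivT hM).trans (((Equiv.optionCongr
    ((ZMod.finEquiv ℓ).toEquiv.trans ((Equiv.mulLeft₀ (d : ZMod ℓ)
      (by rwa [Ne, ZMod.natCast_eq_zero_iff])).trans (ZMod.finEquiv ℓ).toEquiv.symm)))).trans
    (HeckeH.idxEquivT hN).symm)

variable {R A : Type*} [Semiring R] [AddCommGroup A] [Module R A]

/-- `T_ℓ` commutes with degeneracy maps when `ℓ` is prime to both levels. -/
theorem heckeH_degH {ℓ : ℕ} (hℓ : ℓ.Prime) (d : ℕ) [NeZero d] (h : N * d ∣ M) (hN : ¬ ℓ ∣ N)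
    (hM : ¬ ℓ ∣ M) (φ : Period.H N R A) :
    degH R A d h (HeckeH.heckeH N hℓ R A φ) = HeckeH.heckeH M hℓ R A (degH R A d h φ) := by
  haveI : Fact ℓ.Prime := ⟨hℓ⟩
  haveI : NeZero ℓ := ⟨hℓ.ne_zero⟩
  have hd : ¬ ℓ ∣ d := fun hd => hM (hd.trans ((dvd_mul_left d N).trans h))
  refine Subtype.ext (AddMonoidHom.ext fun γ => ?_)
  obtain ⟨γ, rfl⟩ := Additive.ofMul.surjective γ
  rw [degH_apply, HeckeH.coe_heckeH, HeckeH.coe_heckeH]
  let e := idxPerm d hd hN hM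
  have hex : ∀ i : HeckeH.heckeIdx M ℓ, ∃ δ : Gamma0 N,
      dMat d * HeckeH.heckeBeta i = matOf δ * HeckeH.heckeBeta (e i) * dMat d := by
    rintro ⟨_ | j, hj⟩
    · refine ⟨1, ?_⟩
      rw [HeckeH.matOf_one, Matrix.one_mul]
      show dMat d * !![(ℓ : ℤ), 0; 0, 1] = !![(ℓ : ℤ), 0; 0, 1] * dMat d
      rw [dMat, Matrix.mul_fin_two, Matrix.mul_fin_two]
      simp [mul_comm]
    · set k : Fin ℓ := (ZMod.finEquiv ℓ).symm ((d : ZMod ℓ) * ZMod.finEquiv ℓ j) with hk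
      have hek : e ⟨some j, hj⟩ = ⟨some k, fun h => by simp at h⟩ := rfl
      have hmod : (ℓ : ℤ) ∣ (d : ℤ) * (j : ℕ) - (k : ℕ) := by
        rw [← ZMod.intCast_zmod_eq_zero_iff_dvd]
        have hcast : ∀ i : Fin ℓ, ((i : ℕ) : ZMod ℓ) = ZMod.finEquiv ℓ i := by
          intro i
          obtain ⟨m, rfl⟩ : ∃ m, m + 1 = ℓ := ⟨ℓ - 1, Nat.sub_add_cancel hℓ.pos⟩
          exact Fin.cast_val_eq_self i
        push_cast
        rw [hcast, hcast, hk, RingEquiv.apply_symm_apply, sub_self]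
      obtain ⟨x, hx⟩ := hmod
      refine ⟨HeckeH.mkGamma0 1 x 0 1 (by ring) (dvd_zero _), ?_⟩
      rw [hek, HeckeH.matOf_mkGamma0, HeckeH.heckeBeta_some, HeckeH.heckeBeta_some, dMat,
        Matrix.mul_fin_two, Matrix.mul_fin_two, Matrix.mul_fin_two]
      have : (d : ℤ) * (j : ℕ) = (k : ℕ) + x * ℓ := by linear_combination hx
      simp [this]
  choose ε hε using hex
  exact transfer_comp_conj (HeckeH.heckeReps N hℓ) (HeckeH.heckeReps M hℓ) (dMat d) det_dMat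
    (degHom d h) (dMat_mul_degHom d h) e ε hε R _ γ

variable [NeZero N] [NeZero M]

theorem transferMat_degMat {ℓ : ℕ} (hℓ : ℓ.Prime) (d : ℕ) [NeZero d] (h : N * d ∣ M)
    (hN : ¬ ℓ ∣ N) (hM : ¬ ℓ ∣ M) :
    degMat d h * HeckeH.transferMat (HeckeH.heckeReps N hℓ) =
      HeckeH.transferMat (HeckeH.heckeReps M hℓ) * degMat d h := by
  refine rectAct_int_injective fun φ => ?_
  rw [rectAct_mul, rectAct_mul, rectAct_degMat, rectAct_eq_matAct, rectAct_eq_matAct,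
    HeckeH.matAct_transferMat, HeckeH.matAct_transferMat]
  exact heckeH_degH hℓ d h hN hM φ

theorem degMat_jMat (d : ℕ) [NeZero d] (h : N * d ∣ M) :
    degMat d h * HeckeH.jMat N = HeckeH.jMat M * degMat d h := by
  refine rectAct_int_injective fun φ => ?_
  rw [rectAct_mul, rectAct_mul, rectAct_degMat, rectAct_eq_matAct, rectAct_eq_matAct,
    HeckeH.matAct_jMat, HeckeH.matAct_jMat]
  exact degH_jH d h φ

/-! ### The squares over the auxiliary level -/

section Squares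

variable {q N₀ M₀ : ℕ} [NeZero q] [NeZero N₀] [NeZero M₀]

/-- The index does not change when multiplying both levels by a number prime to them. -/
theorem index_subG0_mul (hNM : N₀ ∣ M₀) (hq : q.Coprime M₀) :
    (subG0 N₀ M₀).index = (subG0 (q * N₀) (q * M₀)).index := by
  have h1 := index_subG0 (N := N₀) (M := M₀) hNM
  have h2 := index_subG0 (N := q * N₀) (M := q * M₀) (Nat.mul_dvd_mul_left q hNM)
  rw [ModularCosets.dedekindPsi_mul (hq.coprime_dvd_right hNM), ModularCosets.dedekindPsi_mul hq,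
    ← h1, ← mul_assoc, ← mul_assoc] at h2
  refine Nat.eq_of_mul_eq_mul_right (ModularCosets.dedekindPsi_pos N₀) ?_
  rw [mul_comm (subG0 (q * N₀) (q * M₀)).index] at h2
  rw [mul_comm (subG0 N₀ M₀).index, mul_comm (subG0 (q * N₀) (q * M₀)).index]
  have hq0 := ModularCosets.dedekindPsi_pos q
  nlinarith [h2]

/-- `Γ₀(qᵉ N₀)`: the elements mapped into `Γ₀(qᵃ M)` are those of `Γ₀(qᵉ M)`. -/
theorem degHom_mem_iff {q₀ q₁ : ℕ} (d : ℕ) [NeZero d] (hd : d ∣ q₁) (hN : q₀ * N₀ * d ∣ q₁ * N₀)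
    (hq : q₁.Coprime M₀) (hM : q₀ * M₀ * d ∣ q₁ * M₀)
    (γ : Gamma0 (q₁ * N₀)) :
    ((degHom d hN γ : Gamma0 (q₀ * N₀)) : SL(2, ℤ)) ∈ Gamma0 (q₀ * M₀) ↔
      (γ : SL(2, ℤ)) ∈ Gamma0 (q₁ * M₀) := by
  rw [Gamma0_mem, Gamma0_mem, ZMod.intCast_zmod_eq_zero_iff_dvd,
    ZMod.intCast_zmod_eq_zero_iff_dvd]
  show ((q₀ * M₀ : ℕ) : ℤ) ∣ matOf γ 1 0 / (d : ℤ) ↔ ((q₁ * M₀ : ℕ) : ℤ) ∣ matOf γ 1 0
  have hγ := HeckeH.matOf_dvd γ
  have hdγ : (d : ℤ) ∣ matOf γ 1 0 :=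
    (Int.natCast_dvd_natCast.mpr (hd.trans (dvd_mul_right q₁ N₀))).trans hγ
  rw [Int.dvd_div_iff_mul_dvd hdγ]
  refine ⟨fun h => ?_, fun h => ?_⟩
  · have hM' : (M₀ : ℤ) ∣ matOf γ 1 0 := by
      refine dvd_trans ?_ h
      push_cast
      exact Dvd.intro_left ((d : ℤ) * q₀) (by ring)
    have hq' : (q₁ : ℤ) ∣ matOf γ 1 0 :=
      (Int.natCast_dvd_natCast.mpr (dvd_mul_right q₁ N₀)).trans hγ
    push_cast
    exact (Int.isCoprime_iff_gcd_eq_one.mpr (by simpa [Int.gcd] using hq)).mul_dvd hq' hM'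
  · refine dvd_trans ?_ h
    rw [mul_comm ((d : ℤ))]
    exact_mod_cast hM

end Squares

end FLTAgent.Degen
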