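import Fermat.Agent.Degen.TorsionDeg
import Fermat.Agent.Degen.Square

/-!
# Degeneracy maps in the twisted coordinates

The Hecke equivariant identification `HeckeH.heckeTorsionEquiv` differs from the plain one by
the Fricke conjugation `frickeMat`. `degTw` and `corTw` are the matrices of pullback and
corestriction in these coordinates; they satisfy the Hecke and square relations (`degTw_hecke`,
`corTw_degTw`, `corTw_degTw_comm`). `degTw_galois`: `degTw` commutes with any matrices `MM`
describing the Galois action in these coordinates (`IsGalMatrix`).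
-/

set_option autoImplicit false
set_option linter.unusedSectionVars false
set_option maxHeartbeats 1000000

open CongruenceSubgroup ModularCurve ModularCurve.Period
open scoped MatrixGroups Matrix

noncomputable section

namespace FLTAgent.Degen

local notation "Qb" => AlgebraicClosure ℚ

variable {N M : ℕ} [NeZero N] [NeZero M] {R A : Type*} [Semiring R] [AddCommGroup A] [Module R A]

/-- The matrix of the Fricke conjugation. -/
def frickeMat (N : ℕ) [NeZero N] : RMat N N := rectMat (HeckeH.wH N ℤ ℤ)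

theorem rectAct_frickeMat : rectAct R A (frickeMat N) = HeckeH.wH N R A := by
  refine rectAct_rectMat _ _ fun φ i => ?_
  simp only [HeckeH.wH_apply]
  exact Period.H_decomp φ _

theorem rectAct_one (φ : Period.H N R A) : rectAct R A (1 : RMat N N) φ = φ := by
  rw [rectAct_eq_matAct, map_one, Module.End.one_apply]

theorem frickeMat_mul_self : frickeMat N * frickeMat N = 1 :=
  rectAct_int_injective fun φ => by
    rw [rectAct_mul, rectAct_frickeMat, rectAct_one, HeckeH.wH_wH]

theorem frickeMat_jMat : frickeMat N * HeckeH.jMat N = HeckeH.jMat N * frickeMat N :=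
  rectAct_int_injective fun φ => by
    rw [rectAct_mul, rectAct_mul, rectAct_frickeMat, rectAct_eq_matAct, HeckeH.matAct_jMat]
    exact HeckeH.wH_jH N ℤ ℤ φ

theorem frickeMat_transferMat {ℓ : ℕ} (hℓ : ℓ.Prime) (hN : ¬ ℓ ∣ N) :
    frickeMat N * HeckeH.transferMat (HeckeH.heckeReps N hℓ) =
      HeckeH.transferMat (HeckeH.heckeReps N hℓ) * frickeMat N :=
  rectAct_int_injective fun φ => by
    rw [rectAct_mul, rectAct_mul, rectAct_frickeMat, rectAct_eq_matAct, HeckeH.matAct_transferMat]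
    show HeckeH.wH N ℤ ℤ (HeckeH.heckeH N hℓ ℤ ℤ φ) = HeckeH.heckeH N hℓ ℤ ℤ (HeckeH.wH N ℤ ℤ φ)
    conv_lhs => rw [← HeckeH.heckeHT_eq_heckeH N hℓ ℤ ℤ hN, HeckeH.wH_heckeHT]

theorem heckeMatHom_T {ℓ : ℕ} (hℓ : ℓ.Prime) (hN : ¬ ℓ ∣ N) (hS : ℓ ∉ (∅ : Set ℕ)) :
    HeckeH.heckeMatHom N (CuspForm.heckeAlgebra.T hℓ hN hS) =
      HeckeH.transferMat (HeckeH.heckeReps N hℓ) :=
  HeckeH.heckeMat_eq N (HeckeH.intertwines_transfer N hℓ (HeckeH.periodHomPair_heckeTLin hℓ hN))

/-- A degeneracy map in twisted coordinates. -/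
def degTw (d : ℕ) [NeZero d] (h : N * d ∣ M) : RMat M N := frickeMat M * degMat d h * frickeMat N

/-- Corestriction in twisted coordinates. -/
def corTw : RMat N M := frickeMat N * corMat (N := N) (M := M) * frickeMat M

/-- `degTw` commutes with `T_ℓ` for a prime `ℓ` prime to both levels. -/
theorem degTw_hecke {ℓ : ℕ} (hℓ : ℓ.Prime) (d : ℕ) [NeZero d] (h : N * d ∣ M) (hN : ¬ ℓ ∣ N)
    (hM : ¬ ℓ ∣ M) (hS : ℓ ∉ (∅ : Set ℕ)) :
    degTw d h * HeckeH.heckeMatHom N (CuspForm.heckeAlgebra.T hℓ hN hS) =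
      HeckeH.heckeMatHom M (CuspForm.heckeAlgebra.T hℓ hM hS) * degTw d h := by
  rw [heckeMatHom_T hℓ hN hS, heckeMatHom_T hℓ hM hS, degTw, Matrix.mul_assoc _ (frickeMat N),
    frickeMat_transferMat hℓ hN, ← Matrix.mul_assoc, Matrix.mul_assoc _ (degMat d h),
    transferMat_degMat hℓ d h hN hM, ← Matrix.mul_assoc, frickeMat_transferMat hℓ hM]
  simp only [Matrix.mul_assoc]

/-- Twisted corestriction after restriction is multiplication by the index. -/
theorem corTw_degTw (h : N * 1 ∣ M) :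
    corTw (N := N) (M := M) * degTw 1 h = (subG0 N M).index • (1 : RMat N N) := by
  have hc : corMat (N := N) (M := M) * degMat 1 h = (subG0 N M).index • (1 : RMat N N) :=
    rectAct_int_injective fun φ => by
      rw [rectAct_mul, rectAct_corMat, rectAct_degMat, corH_degH, rectAct_eq_matAct, map_nsmul,
        map_one]
      rfl
  simp only [corTw, degTw, Matrix.mul_assoc]
  rw [← Matrix.mul_assoc (frickeMat M) (frickeMat M), frickeMat_mul_self, Matrix.one_mul,
    ← Matrix.mul_assoc (corMat (N := N) (M := M)), hc, Matrix.smul_mul, Matrix.mul_smul,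
    Matrix.one_mul, frickeMat_mul_self]

/-- Twisted corestriction commutes with degeneracy maps in a cartesian square. -/
theorem corTw_degTw_comm {N' M' : ℕ} [NeZero N'] [NeZero M'] (d : ℕ) [NeZero d]
    (hN : N * d ∣ N') (hM : M * d ∣ M') (hpre : ∀ γ : Gamma0 N',
      ((degHom d hN γ : Gamma0 N) : SL(2, ℤ)) ∈ Gamma0 M ↔ (γ : SL(2, ℤ)) ∈ Gamma0 M')
    (hidx : (subG0 N M).index = (subG0 N' M').index) :
    corTw (N := N') (M := M') * degTw d hM = degTw d hN * corTw (N := N) (M := M) := by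
  have hc : corMat (N := N') (M := M') * degMat d hM = degMat d hN * corMat (N := N) (M := M) :=
    rectAct_int_injective fun φ => by
      rw [rectAct_mul, rectAct_mul, rectAct_corMat, rectAct_corMat, rectAct_degMat, rectAct_degMat,
        corH_degH_comm d hN hM hpre hidx]
  simp only [corTw, degTw, Matrix.mul_assoc]
  rw [← Matrix.mul_assoc (frickeMat M') (frickeMat M'), frickeMat_mul_self, Matrix.one_mul,
    ← Matrix.mul_assoc (frickeMat N) (frickeMat N), frickeMat_mul_self, Matrix.one_mul,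
    ← Matrix.mul_assoc (corMat (N := N') (M := M')), hc, Matrix.mul_assoc]

section Torsion

variable (ι : Qb →+* ℂ)

/-- The twisted identification intertwines pullback with `degTw`. -/
theorem heckeTorsionEquiv_degPic (d : ℕ) [NeZero d] (h : N * d ∣ M) {n : ℕ} [NeZero n]
    (x : AlgebraicCurve.Pic0.torsion Qb (modularFunctionFieldBar N) n) :
    HeckeH.heckeTorsionEquiv M ι n ⟨degPic d h (x : JZero N), degPic_mem_torsion d h x.2⟩ =
      rectAct (ZMod n) (ZMod n) (degTw d h) (HeckeH.heckeTorsionEquiv N ι n x) := by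
  rw [HeckeH.heckeTorsionEquiv_apply, jTorsionEquiv_degPic, HeckeH.heckeTorsionEquiv_apply, degTw,
    rectAct_mul, rectAct_mul, rectAct_frickeMat, rectAct_frickeMat, rectAct_degMat, HeckeH.wH_wH]

variable {p : ℕ} [Fact p.Prime]

/-- `MM` is the matrix of the Galois action in twisted coordinates. -/
def IsGalMatrix (N : ℕ) [NeZero N] (ι : Qb →+* ℂ)
    (MM : (Qb ≃ₐ[ℚ] Qb) → Matrix (Fin (Period.rankH N)) (Fin (Period.rankH N)) ℤ_[p]) : Prop :=
  ∀ (m : ℕ) (σ : Qb ≃ₐ[ℚ] Qb)
    (x : AlgebraicCurve.Pic0.torsion Qb (modularFunctionFieldBar N) (p ^ m)),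
    Period.evalEquiv N (ZMod (p ^ m)) (ZMod (p ^ m))
        (HeckeH.heckeTorsionEquiv N ι (p ^ m) (JZero.torsionGaloisRep N (p ^ m) σ x)) =
      (PadicInt.toZModPow m).mapMatrix (MM σ) *ᵥ
        Period.evalEquiv N (ZMod (p ^ m)) (ZMod (p ^ m)) (HeckeH.heckeTorsionEquiv N ι (p ^ m) x)

/-- Degeneracy maps are Galois equivariant. -/
theorem degTw_galois {MN : (Qb ≃ₐ[ℚ] Qb) → Matrix (Fin (Period.rankH N)) (Fin (Period.rankH N)) ℤ_[p]}
    {MM : (Qb ≃ₐ[ℚ] Qb) → Matrix (Fin (Period.rankH M)) (Fin (Period.rankH M)) ℤ_[p]}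
    (hMN : IsGalMatrix N ι MN) (hMM : IsGalMatrix M ι MM) (d : ℕ) [NeZero d] (h : N * d ∣ M)
    (σ : Qb ≃ₐ[ℚ] Qb) :
    (degTw d h).map (Int.castRingHom ℤ_[p]) * MN σ = MM σ * (degTw d h).map (Int.castRingHom ℤ_[p]) := by
  ext i j
  refine PadicInt.ext_of_toZModPow.mp fun m => ?_
  have key : (degTw d h).map (Int.castRingHom (ZMod (p ^ m))) *
        (MN σ).map (PadicInt.toZModPow (p := p) m) =
      (MM σ).map (PadicInt.toZModPow (p := p) m) *
        (degTw d h).map (Int.castRingHom (ZMod (p ^ m))) := by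
    refine Matrix.mulVec_injective (funext fun v => ?_)
    obtain ⟨φ, rfl⟩ := (Period.evalEquiv N (ZMod (p ^ m)) (ZMod (p ^ m))).surjective v
    obtain ⟨x, rfl⟩ := (HeckeH.heckeTorsionEquiv N ι (p ^ m)).surjective φ
    set x' : AlgebraicCurve.Pic0.torsion Qb (modularFunctionFieldBar M) (p ^ m) :=
      ⟨degPic d h (x : JZero N), degPic_mem_torsion d h x.2⟩ with hx'
    have e1 := hMN m σ x
    have e2 := hMM m σ x'
    have e3 : HeckeH.heckeTorsionEquiv M ι (p ^ m) (JZero.torsionGaloisRep M (p ^ m) σ x') =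
        rectAct (ZMod (p ^ m)) (ZMod (p ^ m)) (degTw d h)
          (HeckeH.heckeTorsionEquiv N ι (p ^ m) (JZero.torsionGaloisRep N (p ^ m) σ x)) := by
      rw [← heckeTorsionEquiv_degPic]
      exact congrArg _ (Subtype.ext (degPic_galois_smul d h σ (x : JZero N)).symm)
    have e4 : HeckeH.heckeTorsionEquiv M ι (p ^ m) x' =
        rectAct (ZMod (p ^ m)) (ZMod (p ^ m)) (degTw d h) (HeckeH.heckeTorsionEquiv N ι (p ^ m) x) :=
      heckeTorsionEquiv_degPic ι d h x
    rw [e3, e4, ← mulVec_evalEquiv (degTw d h), ← mulVec_evalEquiv (degTw d h), e1] at e2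
    rw [← Matrix.mulVec_mulVec, ← Matrix.mulVec_mulVec]
    exact e2
  have e := congrFun (congrFun key i) j
  simp only [Matrix.mul_apply, Matrix.map_apply] at e
  rw [Matrix.mul_apply, Matrix.mul_apply, map_sum, map_sum]
  simpa only [map_mul, Matrix.map_apply, eq_intCast, map_intCast] using e

end Torsion

end FLTAgent.Degen
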