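import Fermat.Agent.Degen.Basic
import Fermat.Agent.ModularCosets.CosetIndex

/-!
# Corestriction of characters from `Γ₀(M)` to `Γ₀(N)`, `N ∣ M`

`corFun` is the transfer of a character along `Γ₀(M) ≤ Γ₀(N)`. It preserves the conditions at
parabolic elements and at elements of finite order (orbit sums, `corFun_mem_H`), hence gives
`corH` on `Period.H`, with matrix `corMat`. Corestriction after restriction is multiplication by
the index (`corH_degH`), and it commutes with the degeneracy maps in a cartesian square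
(`corH_degH_comm`). The lemmas on abstract transfers (`transfer_apply_section`,
`transfer_comp_hom`, `transfer_restrict`) are proved first.
-/

set_option autoImplicit false
set_option linter.unusedSectionVars false

open CongruenceSubgroup ModularCurve.Period
open scoped MatrixGroups
open FLTAgent.HeckeH (M2 matOf)

noncomputable section

namespace FLTAgent.Degen

/-- The transfer computed with a section of the projection to the cosets. -/
theorem transfer_apply_section {G : Type*} [Group G] {H : Subgroup G} [H.FiniteIndex]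
    [Fintype (G ⧸ H)] {A : Type*} [CommGroup A] (ϕ : H →* A) (s : G ⧸ H → G)
    (hs : ∀ q, (s q : G ⧸ H) = q) (g : G) :
    MonoidHom.transfer ϕ g = ∏ q : G ⧸ H, ϕ ⟨(s q)⁻¹ * (g * s (g⁻¹ • q)), by
      rw [← QuotientGroup.eq]
      show (s q : G ⧸ H) = g • ((s (g⁻¹ • q) : G) : G ⧸ H)
      rw [hs, hs, smul_inv_smul]⟩ := by
  rw [MonoidHom.transfer_def ϕ ⟨Set.range s, Subgroup.isComplement_range_left hs⟩ g,
    Subgroup.leftTransversals.diff]
  refine Finset.prod_congr (by congr 1 <;> exact Subsingleton.elim _ _) fun q _ => ?_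
  congr 1
  refine Subtype.ext ?_
  show _ = (s q)⁻¹ * (g * s (g⁻¹ • q))
  simp only [Subgroup.smul_apply_eq_smul_apply_inv_smul, smul_eq_mul]
  rw [Subgroup.IsComplement.leftQuotientEquiv_apply hs, Subgroup.IsComplement.leftQuotientEquiv_apply hs]

section Abstract

variable {G G' : Type*} [Group G] [Group G'] {A : Type*} [CommGroup A]

/-- Transfer commutes with an injection which induces a bijection on cosets. -/
theorem transfer_comp_hom {H : Subgroup G} {H' : Subgroup G'} [H.FiniteIndex] [H'.FiniteIndex]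
    (θ : G' →* G) (hH : ∀ x, θ x ∈ H ↔ x ∈ H') (hidx : H.index = H'.index)
    (ϕ : H →* A) (ϕ' : H' →* A) (hϕ : ∀ x : H', ϕ' x = ϕ ⟨θ x, (hH x).mpr x.2⟩) (g : G') :
    MonoidHom.transfer ϕ (θ g) = MonoidHom.transfer ϕ' g := by
  classical
  have := Fintype.ofFinite (G ⧸ H)
  have := Fintype.ofFinite (G' ⧸ H')
  let π : G' ⧸ H' → G ⧸ H := Quotient.map' θ fun a b hab => by
    rw [QuotientGroup.leftRel_apply] at hab ⊢
    rw [← map_inv, ← map_mul, hH]
    exact hab
  have hπmk : ∀ a : G', π (a : G' ⧸ H') = (θ a : G ⧸ H) := fun a => rfl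
  have hπinj : Function.Injective π := by
    intro x y
    induction x using QuotientGroup.induction_on with
    | _ a => induction y using QuotientGroup.induction_on with
      | _ b =>
        rw [hπmk, hπmk, QuotientGroup.eq, QuotientGroup.eq, ← map_inv, ← map_mul, hH]
        exact id
  have hcard : Fintype.card (G' ⧸ H') = Fintype.card (G ⧸ H) := by
    rw [← Nat.card_eq_fintype_card, ← Nat.card_eq_fintype_card]
    exact hidx.symm
  let e : G' ⧸ H' ≃ G ⧸ H :=
    Equiv.ofBijective π ((Fintype.bijective_iff_injective_and_card π).mpr ⟨hπinj, hcard⟩)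
  let s' : G' ⧸ H' → G' := Quotient.out
  let s : G ⧸ H → G := fun q => θ (s' (e.symm q))
  have hs : ∀ q, (s q : G ⧸ H) = q := fun q => by
    show π (s' (e.symm q) : G' ⧸ H') = q
    rw [QuotientGroup.out_eq']
    exact e.apply_symm_apply q
  have hπsmul : ∀ (a : G') (x : G' ⧸ H'), π (a • x) = θ a • π x := fun a x => by
    induction x using QuotientGroup.induction_on with
    | _ b => exact (hπmk (a * b)).trans (by rw [map_mul]; rfl)
  rw [transfer_apply_section ϕ s hs, transfer_apply_section ϕ' s' (fun q => QuotientGroup.out_eq' q)]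
  refine (Fintype.prod_equiv e _ _ fun x => ?_).symm
  rw [hϕ]
  congr 1
  refine Subtype.ext ?_
  show θ ((s' x)⁻¹ * (g * s' (g⁻¹ • x))) =
    (θ (s' (e.symm (e x))))⁻¹ * (θ g * θ (s' (e.symm ((θ g)⁻¹ • e x))))
  rw [e.symm_apply_apply, show (θ g)⁻¹ • e x = e (g⁻¹ • x) from by
    rw [← map_inv]; exact (hπsmul _ _).symm, e.symm_apply_apply]
  simp only [map_mul, map_inv]

/-- The transfer of a restriction is multiplication by the index. -/
theorem transfer_restrict {H : Subgroup G} [H.FiniteIndex] (f : G →* A) (g : G) :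
    MonoidHom.transfer (f.comp H.subtype) g = f g ^ H.index := by
  classical
  have := Fintype.ofFinite (G ⧸ H)
  rw [transfer_apply_section (f.comp H.subtype) Quotient.out (fun q => QuotientGroup.out_eq' q)]
  simp only [MonoidHom.comp_apply, Subgroup.coe_subtype, map_mul, map_inv, Finset.prod_mul_distrib,
    Finset.prod_inv_distrib, Finset.prod_const, Finset.card_univ]
  rw [show ∏ q : G ⧸ H, f (g⁻¹ • q).out = ∏ q : G ⧸ H, f q.out from
    Fintype.prod_equiv (MulAction.toPerm g⁻¹) _ _ fun q => rfl]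
  rw [Subgroup.index, Nat.card_eq_fintype_card, mul_comm (f g ^ _), inv_mul_cancel_left]

end Abstract

variable {N M : ℕ} [NeZero N] [NeZero M]

/-- `Γ₀(M)` inside `Γ₀(N)`. -/
def subG0 (N M : ℕ) : Subgroup (Gamma0 N) := (Gamma0 M).subgroupOf (Gamma0 N)

instance : (subG0 N M).FiniteIndex := by
  unfold subG0
  infer_instance

theorem index_subG0 (h : N ∣ M) :
    (subG0 N M).index * ModularCurve.dedekindPsi N = ModularCurve.dedekindPsi M := by
  rw [← ModularCosets.index_Gamma0 N, ← ModularCosets.index_Gamma0 M]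
  exact Subgroup.relIndex_mul_index (Period.gamma0_le_gamma0_of_dvd h)

/-- The identification of `subG0 N M` with `Γ₀(M)`. -/
def subG0Hom : subG0 N M →* Gamma0 M where
  toFun γ := ⟨((γ : Gamma0 N) : SL(2, ℤ)), γ.2⟩
  map_one' := rfl
  map_mul' _ _ := rfl

variable {R A : Type*} [Semiring R] [AddCommGroup A] [Module R A]

/-- Corestriction of characters. -/
def corFun (φ : Additive (Gamma0 M) →+ A) : Additive (Gamma0 N) →+ A :=
  MonoidHom.toAdditiveLeft
    (MonoidHom.transfer ((AddMonoidHom.toMultiplicativeRight φ).comp (subG0Hom (N := N))))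

theorem corFun_apply [Fintype (Gamma0 N ⧸ subG0 N M)] (φ : Additive (Gamma0 M) →+ A)
    (s : Gamma0 N ⧸ subG0 N M → Gamma0 N) (hs : ∀ q, (s q : Gamma0 N ⧸ subG0 N M) = q)
    (γ : Gamma0 N) :
    corFun φ (Additive.ofMul γ) = ∑ q : Gamma0 N ⧸ subG0 N M,
      φ (Additive.ofMul ⟨((s q)⁻¹ * (γ * s (γ⁻¹ • q)) : Gamma0 N), by
        have : (s q)⁻¹ * (γ * s (γ⁻¹ • q)) ∈ subG0 N M := by
          rw [← QuotientGroup.eq]
          show (s q : Gamma0 N ⧸ subG0 N M) = γ • ((s (γ⁻¹ • q) : Gamma0 N) : _ ⧸ subG0 N M)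
          rw [hs, hs, smul_inv_smul]
        exact this⟩) := by
  show Multiplicative.toAdd (MonoidHom.transfer _ γ) = _
  rw [transfer_apply_section _ s hs, toAdd_prod]
  rfl

theorem corFun_eq_orbit_sum (φ : Additive (Gamma0 M) →+ A) (γ : Gamma0 N)
    [Fintype (Quotient (MulAction.orbitRel (Subgroup.zpowers γ) (Gamma0 N ⧸ subG0 N M)))] :
    corFun φ (Additive.ofMul γ) =
      ∑ q : Quotient (MulAction.orbitRel (Subgroup.zpowers γ) (Gamma0 N ⧸ subG0 N M)),
        φ (Additive.ofMul (subG0Hom (N := N) (M := M)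
          ⟨q.out.out⁻¹ * γ ^ Function.minimalPeriod (γ • ·) q.out * q.out.out,
            QuotientGroup.out_conj_pow_minimalPeriod_mem (subG0 N M) γ q.out⟩)) := by
  show Multiplicative.toAdd (MonoidHom.transfer _ γ) = _
  rw [MonoidHom.transfer_eq_prod_quotient_orbitRel_zpowers_quot, toAdd_prod]
  rfl

theorem subG0Hom_parabolic (γ g : Gamma0 N) (k : ℕ) (hγ : (matOf γ).trace ^ 2 = 4)
    (hmem : g⁻¹ * γ ^ k * g ∈ subG0 N M) :
    (matOf (subG0Hom (N := N) (M := M) ⟨g⁻¹ * γ ^ k * g, hmem⟩)).trace ^ 2 = 4 := by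
  show (matOf (g⁻¹ * γ ^ k * g : Gamma0 N)).trace ^ 2 = 4
  rw [HeckeH.matOf_mul, Matrix.trace_mul_comm, ← HeckeH.matOf_mul, mul_inv_cancel_left,
    show matOf (γ ^ k) = matOf γ ^ k from by simp [matOf]]
  exact HeckeH.trace_pow_sq_eq_four (HeckeH.det_matOf γ) hγ k

theorem subG0Hom_finOrder (γ g : Gamma0 N) (k : ℕ) (hγ : IsOfFinOrder γ)
    (hmem : g⁻¹ * γ ^ k * g ∈ subG0 N M) :
    IsOfFinOrder (subG0Hom (N := N) (M := M) ⟨g⁻¹ * γ ^ k * g, hmem⟩) := by
  refine MonoidHom.isOfFinOrder _ ?_
  rw [← Submonoid.isOfFinOrder_coe]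
  have h1 : IsOfFinOrder (γ ^ k) := hγ.pow
  have := (MulAut.conj g⁻¹).toMonoidHom.isOfFinOrder h1
  simpa [MulAut.conj_apply] using this

theorem corFun_mem_H {φ : Additive (Gamma0 M) →+ A} (hφ : φ ∈ Period.H M R A) :
    corFun (N := N) φ ∈ Period.H N R A := by
  classical
  have := Fintype.ofFinite (Gamma0 N ⧸ subG0 N M)
  constructor
  · rw [ModularCurve.Period.mem_parabolicHoms_iff]
    intro γ hγ
    rw [corFun_eq_orbit_sum]
    exact Finset.sum_eq_zero fun q _ => hφ.1 _ (subG0Hom_parabolic γ q.out.out _ hγ _)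
  · intro γ hγ
    rw [corFun_eq_orbit_sum]
    exact Finset.sum_eq_zero fun q _ => hφ.2 _ (subG0Hom_finOrder γ q.out.out _ hγ _)

theorem corFun_add (φ ψ : Additive (Gamma0 M) →+ A) :
    corFun (N := N) (φ + ψ) = corFun φ + corFun ψ := by
  classical
  have := Fintype.ofFinite (Gamma0 N ⧸ subG0 N M)
  refine AddMonoidHom.ext fun γ => ?_
  obtain ⟨γ, rfl⟩ := Additive.ofMul.surjective γ
  simp only [corFun_apply _ Quotient.out (fun q => QuotientGroup.out_eq' q),
    AddMonoidHom.add_apply, Finset.sum_add_distrib]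

theorem corFun_smul (r : R) (φ : Additive (Gamma0 M) →+ A) :
    corFun (N := N) (r • φ) = r • corFun φ := by
  classical
  have := Fintype.ofFinite (Gamma0 N ⧸ subG0 N M)
  refine AddMonoidHom.ext fun γ => ?_
  obtain ⟨γ, rfl⟩ := Additive.ofMul.surjective γ
  simp only [corFun_apply _ Quotient.out (fun q => QuotientGroup.out_eq' q),
    AddMonoidHom.smul_apply, Finset.smul_sum]

/-- Corestriction on `H`. -/
def corH (R A : Type*) [Semiring R] [AddCommGroup A] [Module R A] :
    Period.H M R A →ₗ[R] Period.H N R A where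
  toFun φ := ⟨corFun (φ : Additive (Gamma0 M) →+ A), corFun_mem_H φ.2⟩
  map_add' φ ψ := Subtype.ext (corFun_add _ _)
  map_smul' r φ := Subtype.ext (corFun_smul r _)

@[simp] theorem coe_corH (φ : Period.H M R A) :
    (corH (N := N) R A φ : Additive (Gamma0 N) →+ A) = corFun (φ : Additive (Gamma0 M) →+ A) := rfl

/-- The matrix of corestriction. -/
def corMat : RMat N M := rectMat (corH (N := N) (M := M) ℤ ℤ)

theorem rectAct_corMat : rectAct R A (corMat (N := N) (M := M)) = corH R A := by
  classical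
  have := Fintype.ofFinite (Gamma0 N ⧸ subG0 N M)
  refine rectAct_rectMat _ _ fun φ i => ?_
  simp only [coe_corH, corFun_apply _ Quotient.out (fun q => QuotientGroup.out_eq' q),
    Finset.sum_smul]
  rw [Finset.sum_comm]
  exact Finset.sum_congr rfl fun q _ => Period.H_decomp φ _

/-- Corestriction after restriction is multiplication by the index. -/
theorem corH_degH (h : N * 1 ∣ M) (φ : Period.H N R A) :
    corH R A (degH R A 1 h φ) = (subG0 N M).index • φ := by
  refine Subtype.ext (AddMonoidHom.ext fun γ => ?_)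
  obtain ⟨γ, rfl⟩ := Additive.ofMul.surjective γ
  rw [coe_corH, Submodule.coe_smul_of_tower]
  show Multiplicative.toAdd (MonoidHom.transfer _ γ) = _
  rw [show (AddMonoidHom.toMultiplicativeRight
      (degH R A 1 h φ : Additive (Gamma0 M) →+ A)).comp (subG0Hom (N := N)) =
      (AddMonoidHom.toMultiplicativeRight (φ : Additive (Gamma0 N) →+ A)).comp
        (subG0 N M).subtype from ?_, transfer_restrict]
  · rfl
  · refine MonoidHom.ext fun x => ?_
    refine congrArg (fun y => Multiplicative.ofAdd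
      ((φ : Additive (Gamma0 N) →+ A) (Additive.ofMul y))) (Subtype.ext ?_)
    rw [degHom_one_coe]
    rfl

/-- Corestriction commutes with degeneracy maps in a cartesian square. -/
theorem corH_degH_comm {N' M' : ℕ} [NeZero N'] [NeZero M'] (d : ℕ) [NeZero d]
    (hN : N * d ∣ N') (hM : M * d ∣ M') (hpre : ∀ γ : Gamma0 N',
      ((degHom d hN γ : Gamma0 N) : SL(2, ℤ)) ∈ Gamma0 M ↔ (γ : SL(2, ℤ)) ∈ Gamma0 M')
    (hidx : (subG0 N M).index = (subG0 N' M').index) (φ : Period.H M R A) :
    corH R A (degH R A d hM φ) = degH R A d hN (corH R A φ) := by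
  refine Subtype.ext (AddMonoidHom.ext fun γ => ?_)
  obtain ⟨γ, rfl⟩ := Additive.ofMul.surjective γ
  rw [coe_corH, degH_apply, coe_corH]
  show Multiplicative.toAdd (MonoidHom.transfer _ γ) =
    Multiplicative.toAdd (MonoidHom.transfer _ (degHom d hN γ))
  rw [transfer_comp_hom (H := subG0 N M) (H' := subG0 N' M') (degHom d hN) (fun x => hpre x) hidx]
  intro x
  refine congrArg (fun y => Multiplicative.ofAdd
    ((φ : Additive (Gamma0 M) →+ A) (Additive.ofMul y))) ?_
  refine HeckeH.matOf_injective (HeckeH.mul_right_cancel_of_det_ne (det_dMat (d := d)) ?_)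
  rw [← dMat_mul_degHom]
  exact dMat_mul_degHom d hN (x : Gamma0 N')

end FLTAgent.Degen
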