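import Fermat.Agent.Reps.Model
import Fermat.Agent.Degen.Twist

/-!
# Canonical Galois models

`CanModel ι N p`: matrices over `ℤ_p` giving the Galois action on the coordinates
`Period.evalEquiv` of `HeckeH.heckeTorsionEquiv`, together with the properties of a
`Reps.GalModel`; `CanModel.toGalModel` is the underlying model. Canonical models at different
levels are related by the integral matrices of `Degen.Twist`.
-/

set_option autoImplicit false

noncomputable section

open CongruenceSubgroup ModularCurve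

namespace FLTAgent.Degen

local notation "Qb" => AlgebraicClosure ℚ
local notation "Γℚ" => (AlgebraicClosure ℚ ≃ₐ[ℚ] AlgebraicClosure ℚ)

variable (ι : Qb →+* ℂ) (N : ℕ) [NeZero N] (p : ℕ) [Fact p.Prime]

/-- A Galois model in the canonical coordinates. -/
structure CanModel where
  /-- The Galois matrices. -/
  MM : Γℚ →* Matrix (Fin (Period.rankH N)) (Fin (Period.rankH N)) ℤ_[p]
  isGal : IsGalMatrix N ι MM
  continuous_level : ∀ m : ℕ, ∃ L : IntermediateField ℚ Qb, FiniteDimensional ℚ L ∧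
    ∀ σ : Γℚ, (∀ x ∈ L, σ x = x) → (PadicInt.toZModPow m).mapMatrix (MM σ) = 1
  commute_hecke : ∀ (σ : Γℚ) (t : Reps.TZ N),
    Commute (MM σ) ((Int.castRingHom ℤ_[p]).mapMatrix (HeckeH.heckeMatHom N t))
  frobenius_rel : ∀ (ℓ : ℕ) (hℓ : ℓ.Prime) (hℓN : ¬ ℓ ∣ N), ℓ ≠ p →
    ∀ A : ValuationSubring Qb, A.LiesOverPrime ℓ → ∀ σ : Γℚ, A.IsFrobeniusAt σ ℓ →
      MM σ * MM σ - (Int.castRingHom ℤ_[p]).mapMatrix
          (HeckeH.heckeMatHom N (Reps.heckeTOf hℓ hℓN)) * MM σ
        + (ℓ : Matrix (Fin (Period.rankH N)) (Fin (Period.rankH N)) ℤ_[p]) = 0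
  inertia_trivial : ∀ (q : ℕ), q.Prime → ¬ q ∣ N → q ≠ p →
    ∀ A : ValuationSubring Qb, A.LiesOverPrime q → ∀ σ ∈ A.inertiaSubgroupIn ℚ, MM σ = 1
  /-- A complex conjugation. -/
  cc : Γℚ
  cc_mul_self : cc * cc = 1
  MM_cc : MM cc = -((HeckeH.jMat N).map (Int.castRingHom ℤ_[p]))
  finrank_eigen : ∀ (K : Type) [Field K] [CharZero K] (χ : Reps.TZ N →+* K),
    Module.finrank K (Reps.eigenSub
      (fun t => (Int.castRingHom K).mapMatrix (HeckeH.heckeMatHom N t)) χ) = 2
  exists_plus : ∀ (K : Type) [Field K] [CharZero K] (χ : Reps.TZ N →+* K) (f : ℤ_[p] →+* K),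
    ∃ v ∈ Reps.eigenSub (fun t => (Int.castRingHom K).mapMatrix (HeckeH.heckeMatHom N t)) χ,
      v ≠ 0 ∧ (f.mapMatrix (MM cc)).mulVec v = v
  exists_minus : ∀ (K : Type) [Field K] [CharZero K] (χ : Reps.TZ N →+* K) (f : ℤ_[p] →+* K),
    ∃ v ∈ Reps.eigenSub (fun t => (Int.castRingHom K).mapMatrix (HeckeH.heckeMatHom N t)) χ,
      v ≠ 0 ∧ (f.mapMatrix (MM cc)).mulVec v = -v

variable {ι N p}

/-- The underlying `GalModel`. -/
def CanModel.toGalModel (C : CanModel ι N p) : Reps.GalModel N p where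
  r := Period.rankH N
  τ := HeckeH.heckeMatHom N
  τ_injective := HeckeH.heckeMatHom_injective N
  M := C.MM
  continuous_level := C.continuous_level
  commute_hecke := C.commute_hecke
  frobenius_rel := C.frobenius_rel
  inertia_trivial := C.inertia_trivial
  cc := C.cc
  cc_mul_self := C.cc_mul_self
  finrank_eigen := C.finrank_eigen
  exists_plus := C.exists_plus
  exists_minus := C.exists_minus

end FLTAgent.Degen
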