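import Fermat.Agent.Degen.Data
import Fermat.Agent.BadQ.TwoFixed
import Fermat.Agent.Reps.Tate
import Fermat.Agent.BadQ.Toric

/-!
# The inputs of `Degen.Data`

`canModel N p` is the canonical model built from `Reps.galModel`. `exists_toric` restates
`BadQ.exists_toric_of_eq` (toric part at level `q M`) and `fixed_le` restates
`BadQ.TwoInst.fixed_le_two` (bound on the invariants of inertia at level `q² M`) in these
coordinates.
-/

set_option autoImplicit false

noncomputable section

open CongruenceSubgroup ModularCurve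

namespace FLTAgent.Degen

local notation "Qb" => AlgebraicClosure ℚ

/-- An embedding of `ℚ̄` into `ℂ`. -/
theorem exists_iotaC : Nonempty (Qb →+* ℂ) := ⟨Reps.qbarEmb⟩

/-- The canonical model built from `Reps.galModel`. -/
def canModel (N : ℕ) [NeZero N] (p : ℕ) [Fact p.Prime] : CanModel Reps.qbarEmb N p where
  MM := (Reps.galModel N p).M
  isGal m σ x := Reps.galModel_coord N p m σ x
  continuous_level := (Reps.galModel N p).continuous_level
  commute_hecke := (Reps.galModel N p).commute_hecke
  frobenius_rel := (Reps.galModel N p).frobenius_rel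
  inertia_trivial := (Reps.galModel N p).inertia_trivial
  cc := (Reps.galModel N p).cc
  cc_mul_self := (Reps.galModel N p).cc_mul_self
  MM_cc := Reps.galModel_cc N p
  finrank_eigen := (Reps.galModel N p).finrank_eigen
  exists_plus := (Reps.galModel N p).exists_plus
  exists_minus := (Reps.galModel N p).exists_minus

/-- The toric part at level `q M` (lifting lemma at the node graph). -/
theorem exists_toric {ι : Qb →+* ℂ} {p : ℕ} [Fact p.Prime] {q M : ℕ} [NeZero q] [NeZero M]
    (hq : q.Prime) (hqp : q ≠ p) (hM : q.Coprime M) (hadm : (q = 2 → 9 ∣ M) ∧ (q ≠ 2 → 4 ∣ M))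
    (h₁ : CanModel ι (q * M) p) :
    ∃ k : ℕ, Period.rankH (q * M) ≤ 2 * Period.rankH M + 2 * k ∧
      Local.HasToricPart h₁.toGalModel q k :=
  BadQ.exists_toric_of_eq M q (mul_comm q M) hq hqp
    (fun h => hq.ne_one ((Nat.gcd_eq_left h).symm.trans hM)) h₁

/-- The bound on inertia invariants at level `q² M` (two-chart model). -/
theorem fixed_le {ι : Qb →+* ℂ} {p : ℕ} [Fact p.Prime] {q M : ℕ} [NeZero q] [NeZero M]
    (hq : q.Prime) (hqp : q ≠ p) (hM : q.Coprime M) (hadm : (q = 2 → 9 ∣ M) ∧ (q ≠ 2 → 4 ∣ M))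
    (h₂ : CanModel ι (q ^ 2 * M) p) (A : ValuationSubring Qb) (hA : A.LiesOverPrime q)
    (L : Type) [Field L] [CharZero L] (f : ℤ_[p] →+* L) :
    Module.finrank L (⨅ i ∈ A.inertiaSubgroupIn ℚ,
      LinearMap.ker ((f.mapMatrix (h₂.MM i)).mulVecLin - LinearMap.id) :
        Submodule L (Fin (Period.rankH (q ^ 2 * M)) → L)) ≤
      Period.rankH M + Period.rankH (q * M) := by
  haveI : Fact q.Prime := ⟨hq⟩
  exact BadQ.TwoInst.fixed_le_two hA M (hq.coprime_iff_not_dvd.1 hM)
    ((eq_or_ne q 2).elim (fun h => Or.inr (hadm.1 h)) (fun h => Or.inl (hadm.2 h))) hqp h₂ L f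

end FLTAgent.Degen
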