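import Fermat.Agent.HeckeH.Eigen

/-!
# Integer matrices under change of the field of coefficients

`finrank_ker_le_of_complex`: a bound on the dimension of the kernel of an integer matrix `C`
over `ℂ` holds over every field of characteristic zero (the kernel is the common zero eigenspace
of `Cᵀ C`). `exists_int_solution`: linear conditions `A X = X B` with integral coefficients and a
complex solution of nonzero determinant have an integral one (expand in a rational basis of the
solution space, choose a rational point where the determinant does not vanish, clear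
denominators).
-/

set_option autoImplicit false
set_option linter.unusedSectionVars false

open Matrix
open scoped ComplexOrder

noncomputable section

namespace FLTAgent.Degen

theorem map_transpose_mul {r m : ℕ} (C : Matrix (Fin m) (Fin r) ℤ) (K : Type*) [CommRing K] :
    (Cᵀ * C).map (Int.cast : ℤ → K) = (C.map (Int.cast : ℤ → K))ᵀ * C.map (Int.cast : ℤ → K) := by
  ext i j
  simp [Matrix.mul_apply]

/-- A bound on the kernel over `ℂ` holds over every field of characteristic zero. -/
theorem finrank_ker_le_of_complex {r m k : ℕ} (C : Matrix (Fin m) (Fin r) ℤ)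
    (h : Module.finrank ℂ (LinearMap.ker (C.map (Int.cast : ℤ → ℂ)).mulVecLin) ≤ k)
    (L : Type*) [Field L] [CharZero L] :
    Module.finrank L (LinearMap.ker (C.map (Int.cast : ℤ → L)).mulVecLin) ≤ k := by
  let F : Unit → Matrix (Fin r) (Fin r) ℤ := fun _ => Cᵀ * C
  have hL : LinearMap.ker (C.map (Int.cast : ℤ → L)).mulVecLin ≤
      HeckeH.famEigen F (fun _ => (0 : L)) := by
    intro v hv t
    rw [LinearMap.mem_ker, mulVecLin_apply] at hv
    rw [map_transpose_mul, ← mulVec_mulVec, hv, mulVec_zero, zero_smul]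
  have hC : HeckeH.famEigen F (fun _ => (0 : ℂ)) ≤
      LinearMap.ker (C.map (Int.cast : ℤ → ℂ)).mulVecLin := by
    intro v hv
    have h1 : ((C.map (Int.cast : ℤ → ℂ))ᵀ * C.map (Int.cast : ℤ → ℂ)) *ᵥ v = 0 := by
      rw [← map_transpose_mul]; simpa using hv ()
    rw [LinearMap.mem_ker, mulVecLin_apply, ← conjTranspose_mul_self_mulVec_eq_zero]
    refine Eq.trans ?_ h1
    congr 2
    ext i j
    simp
  have eL := HeckeH.finrank_famEigen_map F (algebraMap ℚ L) (fun _ => (0 : ℚ))
  have eC := HeckeH.finrank_famEigen_map F (algebraMap ℚ ℂ) (fun _ => (0 : ℚ))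
  rw [show (algebraMap ℚ L ∘ fun _ : Unit => (0 : ℚ)) = fun _ => (0 : L) from
    funext fun _ => map_zero _] at eL
  rw [show (algebraMap ℚ ℂ ∘ fun _ : Unit => (0 : ℚ)) = fun _ => (0 : ℂ) from
    funext fun _ => map_zero _] at eC
  exact (Submodule.finrank_mono hL).trans ((eL.trans eC.symm).le.trans
    ((Submodule.finrank_mono hC).trans h))

/-- Integer linear conditions `A X = X B` with a solution over `ℂ` of nonzero determinant have one
over `ℤ`. -/
theorem exists_int_solution {r : ℕ} {ι : Type*} (A B : ι → Matrix (Fin r) (Fin r) ℤ)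
    (X : Matrix (Fin r) (Fin r) ℂ) (hX : X.det ≠ 0)
    (hAB : ∀ t, (A t).map (Int.cast : ℤ → ℂ) * X = X * (B t).map (Int.cast : ℤ → ℂ)) :
    ∃ θ : Matrix (Fin r) (Fin r) ℤ, θ.det ≠ 0 ∧ ∀ t, A t * θ = θ * B t := by
  classical
  let β := Module.Basis.ofVectorSpace ℚ ℂ
  let s : Finset _ := Finset.univ.biUnion fun p : Fin r × Fin r => (β.repr (X p.1 p.2)).support
  let Xl : s → Matrix (Fin r) (Fin r) ℚ := fun l => Matrix.of fun i j => β.repr (X i j) l
  have hXl : ∀ t l, (A t).map (Int.cast : ℤ → ℚ) * Xl l = Xl l * (B t).map (Int.cast : ℤ → ℚ) := by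
    intro t l
    ext i j
    have h1 := congrArg (fun z => β.repr z l) (congrFun (congrFun (hAB t) i) j)
    simp only [Matrix.mul_apply, map_apply, map_sum, Finsupp.coe_finsetSum, Finset.sum_apply] at h1
    have e1 : ∀ (n : ℤ) (z : ℂ), β.repr ((n : ℂ) * z) l = (n : ℚ) * β.repr z l := fun n z => by
      rw [show (n : ℂ) * z = (n : ℚ) • z from by rw [Algebra.smul_def]; simp, map_smul,
        Finsupp.smul_apply, smul_eq_mul]
    have e2 : ∀ (n : ℤ) (z : ℂ), β.repr (z * (n : ℂ)) l = β.repr z l * (n : ℚ) := fun n z => by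
      rw [mul_comm z, e1, mul_comm]
    simp only [e1, e2] at h1
    simp only [Matrix.mul_apply, map_apply, Xl, Matrix.of_apply]
    exact h1
  have hsum : X = ∑ l : s, β (l : _) • (Xl l).map (algebraMap ℚ ℂ) := by
    ext i j
    rw [Matrix.sum_apply]
    have h := β.linearCombination_repr (X i j)
    rw [Finsupp.linearCombination_apply, Finsupp.sum, Finset.sum_subset (s₂ := s)
      (fun l hl => Finset.mem_biUnion.mpr ⟨(i, j), Finset.mem_univ _, hl⟩)
      (fun l _ hl => by rw [Finsupp.notMem_support_iff.mp hl, zero_smul]),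
      ← Finset.sum_coe_sort s] at h
    refine h.symm.trans (Finset.sum_congr rfl fun l _ => ?_)
    show _ = β (l : _) • (algebraMap ℚ ℂ) (β.repr (X i j) l)
    rw [smul_eq_mul, Algebra.smul_def, mul_comm]
  let P : Matrix (Fin r) (Fin r) (MvPolynomial s ℚ) :=
    Matrix.of fun i j => ∑ l, MvPolynomial.C (Xl l i j) * MvPolynomial.X l
  have hP : P.det ≠ 0 := by
    intro h0
    refine hX ?_
    have h1 := congrArg (MvPolynomial.aeval fun l : s => β (l : _)) h0
    rw [map_zero, AlgHom.map_det] at h1
    rw [← h1]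
    congr 1
    rw [hsum]
    ext i j
    rw [AlgHom.mapMatrix_apply, Matrix.sum_apply, Matrix.map_apply]
    simp only [P, Matrix.of_apply, map_sum, map_mul, MvPolynomial.aeval_C, MvPolynomial.aeval_X]
    refine Finset.sum_congr rfl fun l _ => ?_
    rw [Matrix.smul_apply, Matrix.map_apply, smul_eq_mul, mul_comm]
  obtain ⟨y, hy⟩ : ∃ y : s → ℚ, MvPolynomial.eval y P.det ≠ 0 := by
    by_contra hcon
    push Not at hcon
    exact hP (MvPolynomial.funext fun y => by rw [hcon y, map_zero])
  let Y : Matrix (Fin r) (Fin r) ℚ := ∑ l, y l • Xl l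
  have hYdet : Y.det ≠ 0 := by
    rw [RingHom.map_det] at hy
    refine fun h => hy (Eq.trans ?_ h)
    congr 1
    ext i j
    rw [RingHom.mapMatrix_apply, Matrix.map_apply, show Y i j = ∑ l, (y l • Xl l) i j from Matrix.sum_apply i j Finset.univ _]
    simp only [P, Matrix.of_apply, map_sum, map_mul, MvPolynomial.eval_C, MvPolynomial.eval_X]
    refine Finset.sum_congr rfl fun l _ => ?_
    rw [Matrix.smul_apply, smul_eq_mul, mul_comm]
  have hY : ∀ t, (A t).map (Int.cast : ℤ → ℚ) * Y = Y * (B t).map (Int.cast : ℤ → ℚ) := fun t => by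
    simp only [Y, Finset.mul_sum, Finset.sum_mul, Matrix.mul_smul, Matrix.smul_mul, hXl]
  obtain ⟨b, hb⟩ := IsLocalization.exist_integer_multiples_of_finite (nonZeroDivisors ℤ)
    (fun p : Fin r × Fin r => Y p.1 p.2)
  choose θ hθ using hb
  let θm : Matrix (Fin r) (Fin r) ℤ := Matrix.of fun i j => θ (i, j)
  have hθm : θm.map (Int.cast : ℤ → ℚ) = ((b : ℤ) : ℚ) • Y := by
    ext i j
    have := hθ (i, j)
    simpa [θm, Algebra.smul_def] using this
  refine ⟨θm, fun h => ?_, fun t => ?_⟩
  · have h1 := RingHom.map_det (Int.castRingHom ℚ) θm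
    rw [h, map_zero, RingHom.mapMatrix_apply, Int.coe_castRingHom, hθm, det_smul] at h1
    rcases mul_eq_zero.mp h1.symm with h2 | h2
    · exact (nonZeroDivisors.coe_ne_zero b) (by exact_mod_cast (pow_eq_zero_iff'.mp h2).1)
    · exact hYdet h2
  · refine Matrix.map_injective (Int.cast_injective (α := ℚ)) ?_
    show (A t * θm).map (Int.castRingHom ℚ) = (θm * B t).map (Int.castRingHom ℚ)
    rw [Matrix.map_mul, Matrix.map_mul, Int.coe_castRingHom, hθm, Matrix.mul_smul, Matrix.smul_mul,
      hY]

end FLTAgent.Degen
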