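import Fermat.Agent.Degen.Oldforms
import Fermat.Agent.Degen.BaseChange

/-!
# Linear algebra of the degeneracy matrices

In period coordinates `degMat` is the linear degeneracy map on pairs of forms (`mulVec_degMat`).
With the oldform lemmas this gives joint injectivity of the two maps from a level prime to `q`
(`degMat_injective`) and the bound `finrank_ker_degMat_le` on the common part from level `q M`.
`exists_theta` produces an integral matrix of nonzero determinant commuting with the Hecke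
operators and anticommuting with the involution (over `ℂ` exchange the two halves of the period
coordinates, then apply `exists_int_solution`).
-/

set_option autoImplicit false
set_option linter.unusedSectionVars false

open CongruenceSubgroup ModularCurve ModularCurve.Period UpperHalfPlane Matrix
open scoped MatrixGroups ModularForm

noncomputable section

namespace FLTAgent.Degen

variable {N M : ℕ} [NeZero N] [NeZero M]

/-- The linear degeneracy map on pairs of forms. -/
def degPair (d : ℕ) [NeZero d] (h : N * d ∣ M) :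
    (CuspForm (Gamma0 N) 2 × CuspForm (Gamma0 N) 2) →ₗ[ℂ]
      (CuspForm (Gamma0 M) 2 × CuspForm (Gamma0 M) 2) where
  toFun p := (degForm d h p.1, degForm d h p.2)
  map_add' p p' := by
    refine Prod.ext (CuspForm.ext fun τ => ?_) (CuspForm.ext fun τ => ?_) <;>
      simp [SlashAction.add_slash]
  map_smul' c p := by
    refine Prod.ext (CuspForm.ext fun τ => ?_) (CuspForm.ext fun τ => ?_) <;>
      simp only [Prod.smul_fst, Prod.smul_snd, RingHom.id_apply, _root_.smul_apply,
        degForm_apply, smul_eq_mul] <;> ring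

theorem mulVec_degMat (d : ℕ) [NeZero d] (h : N * d ∣ M)
    (p : CuspForm (Gamma0 N) 2 × CuspForm (Gamma0 N) 2) :
    (degMat d h).map (Int.cast : ℤ → ℂ) *ᵥ HeckeH.periodCoord N p =
      HeckeH.periodCoord M (degPair d h p) := by
  show (degMat d h).map (Int.castRingHom ℂ) *ᵥ Period.evalEquiv N ℂ ℂ (HeckeH.ppH N p) =
    Period.evalEquiv M ℂ ℂ (HeckeH.ppH M (degPair d h p))
  rw [mulVec_evalEquiv, rectAct_degMat, degH_ppH]
  rfl

/-- The columns of two matrices side by side. -/
def joinCols {r s : ℕ} (A B : Matrix (Fin s) (Fin r) ℤ) : Matrix (Fin s) (Fin (r + r)) ℤ :=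
  (fromCols A B).submatrix id finSumFinEquiv.symm

theorem joinCols_mulVec {r s : ℕ} (A B : Matrix (Fin s) (Fin r) ℤ) {K : Type*} [CommRing K]
    (x y : Fin r → K) :
    (joinCols A B).map (Int.cast : ℤ → K) *ᵥ (Sum.elim x y ∘ finSumFinEquiv.symm) =
      A.map (Int.cast : ℤ → K) *ᵥ x + B.map (Int.cast : ℤ → K) *ᵥ y := by
  funext i
  simp only [mulVec, dotProduct, Pi.add_apply]
  rw [← finSumFinEquiv.sum_comp, Fintype.sum_sum_type]
  simp only [joinCols, Matrix.map_apply, submatrix_apply, id, Function.comp_apply,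
    Equiv.symm_apply_apply, fromCols_apply_inl, fromCols_apply_inr, Sum.elim_inl, Sum.elim_inr]

/-- The two coordinates as one. -/
def pairEquiv (r : ℕ) (K : Type*) [CommRing K] :
    ((Fin r → K) × (Fin r → K)) ≃ₗ[K] (Fin (r + r) → K) :=
  (LinearEquiv.sumArrowLequivProdArrow (Fin r) (Fin r) K K).symm.trans
    (LinearEquiv.funCongrLeft K K finSumFinEquiv.symm)

theorem pairEquiv_apply {r : ℕ} {K : Type*} [CommRing K] (x y : Fin r → K) :
    pairEquiv r K (x, y) = Sum.elim x y ∘ finSumFinEquiv.symm := rfl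

section Injective

variable {q : ℕ} [NeZero q]

theorem deg_injective_complex (hq : q.Coprime M) (hq2 : 2 ≤ q) {M₁ : ℕ} [NeZero M₁]
    (ha : M * 1 ∣ M₁) (hb : M * q ∣ M₁)
    {x y : Fin (Period.rankH M) → ℂ}
    (h : (degMat 1 ha).map (Int.cast : ℤ → ℂ) *ᵥ x + (degMat q hb).map (Int.cast : ℤ → ℂ) *ᵥ y = 0) :
    x = 0 ∧ y = 0 := by
  obtain ⟨p, rfl⟩ := (HeckeH.periodCoord M).surjective x
  obtain ⟨p', rfl⟩ := (HeckeH.periodCoord M).surjective y
  rw [mulVec_degMat, mulVec_degMat, ← map_add, LinearEquiv.map_eq_zero_iff, Prod.ext_iff] at h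
  have key : ∀ f g : CuspForm (Gamma0 M) 2, degForm 1 ha f + degForm q hb g = 0 →
      f = 0 ∧ g = 0 := fun f g e => oldforms_injective hq hq2 fun τ => by
    have h1 := DFunLike.congr_fun e τ
    rwa [_root_.add_apply, show degForm 1 ha f τ = f τ from congrFun (degForm_one ha f) τ] at h1
  obtain ⟨h1, h2⟩ := key p.1 p'.1 h.1
  obtain ⟨h3, h4⟩ := key p.2 p'.2 h.2
  rw [LinearEquiv.map_eq_zero_iff, LinearEquiv.map_eq_zero_iff]
  exact ⟨Prod.ext h1 h3, Prod.ext h2 h4⟩

/-- The two degeneracy maps from a level prime to `q` are jointly injective. -/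
theorem degMat_injective (hq : q.Coprime M) (hq2 : 2 ≤ q) {M₁ : ℕ} [NeZero M₁]
    (ha : M * 1 ∣ M₁) (hb : M * q ∣ M₁) {x y : Fin (Period.rankH M) → ℤ}
    (h : degMat 1 ha *ᵥ x + degMat q hb *ᵥ y = 0) : x = 0 ∧ y = 0 := by
  have key := deg_injective_complex hq hq2 ha hb (x := fun i => (x i : ℂ)) (y := fun i => (y i : ℂ))
    (by
      funext i
      have h1 := congrArg (Int.cast : ℤ → ℂ) (congrFun h i)
      simpa [mulVec, dotProduct] using h1)
  exact ⟨funext fun i => Int.cast_eq_zero.mp (congrFun key.1 i),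
    funext fun i => Int.cast_eq_zero.mp (congrFun key.2 i)⟩

end Injective

section Common

variable {q : ℕ} [NeZero q]

theorem finrank_ker_complex_le (hq : q.Prime) {N₁ N₂ : ℕ} [NeZero N₁] [NeZero N₂] (hN₁ : N₁ = q * M)
    (ha : N₁ * 1 ∣ N₂) (hb : N₁ * q ∣ N₂) :
    Module.finrank ℂ (LinearMap.ker
      ((joinCols (degMat 1 ha) (degMat q hb)).map (Int.cast : ℤ → ℂ)).mulVecLin) ≤
        Period.rankH M := by
  have := Period.finiteDimensional_cuspForm_two (N := M)
  have hup : M * 1 ∣ N₁ := by rw [hN₁, mul_one]; exact dvd_mul_left M q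
  have huq : M * q ∣ N₁ := by rw [hN₁, mul_comm]
  let Φ : (CuspForm (Gamma0 M) 2 × CuspForm (Gamma0 M) 2) →ₗ[ℂ]
      (Fin (Period.rankH N₁ + Period.rankH N₁) → ℂ) :=
    (pairEquiv _ ℂ).toLinearMap ∘ₗ
      ((HeckeH.periodCoord N₁).toLinearMap ∘ₗ (-degPair q huq)).prod
        ((HeckeH.periodCoord N₁).toLinearMap ∘ₗ degPair 1 hup)
  have hle : LinearMap.ker ((joinCols (degMat 1 ha) (degMat q hb)).map
      (Int.cast : ℤ → ℂ)).mulVecLin ≤ LinearMap.range Φ := by
    intro v hv
    obtain ⟨⟨x, y⟩, rfl⟩ := (pairEquiv _ ℂ).surjective v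
    obtain ⟨p, rfl⟩ := (HeckeH.periodCoord N₁).surjective x
    obtain ⟨p', rfl⟩ := (HeckeH.periodCoord N₁).surjective y
    rw [LinearMap.mem_ker, mulVecLin_apply, pairEquiv_apply, joinCols_mulVec, mulVec_degMat,
      mulVec_degMat, ← map_add, LinearEquiv.map_eq_zero_iff, Prod.ext_iff] at hv
    have key : ∀ f g : CuspForm (Gamma0 N₁) 2, degForm 1 ha f + degForm q hb g = 0 →
        ∃ g₀ : CuspForm (Gamma0 M) 2, f = -degForm q huq g₀ ∧ g = degForm 1 hup g₀ := by
      intro f g e
      have e' : ∀ τ, f τ + ((⇑g : ℍ → ℂ) ∣[(2 : ℤ)] ModularForm.heckeDiagMatrix q) τ = 0 :=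
        fun τ => by
          have h1 := DFunLike.congr_fun e τ
          rwa [_root_.add_apply,
            show degForm 1 ha f τ = f τ from congrFun (degForm_one ha f) τ] at h1
      obtain ⟨g₀, hg₀⟩ := oldforms_common hN₁ hq e'
      refine ⟨g₀, CuspForm.ext fun τ => ?_, CuspForm.ext fun τ => ?_⟩
      · have h2 := e' τ
        rw [← hg₀] at h2
        exact eq_neg_of_add_eq_zero_left h2
      · exact (congrFun hg₀ τ).symm.trans (congrFun (degForm_one hup g₀) τ).symm
    obtain ⟨g₁, h1, h1'⟩ := key p.1 p'.1 hv.1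
    obtain ⟨g₂, h2, h2'⟩ := key p.2 p'.2 hv.2
    refine ⟨(g₁, g₂), ?_⟩
    rw [show p = -degPair q huq (g₁, g₂) from Prod.ext h1 h2,
      show p' = degPair 1 hup (g₁, g₂) from Prod.ext h1' h2']
    rfl
  calc _ ≤ Module.finrank ℂ (LinearMap.range Φ) := Submodule.finrank_mono hle
    _ ≤ Module.finrank ℂ (CuspForm (Gamma0 M) 2 × CuspForm (Gamma0 M) 2) :=
      LinearMap.finrank_range_le Φ
    _ = Period.rankH M := by rw [(HeckeH.periodCoord M).finrank_eq, Module.finrank_fin_fun]

/-- The kernel of the two degeneracy maps from level `q M` has rank at most that of level `M`. -/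
theorem finrank_ker_degMat_le (hq : q.Prime) {N₁ N₂ : ℕ} [NeZero N₁] [NeZero N₂] (hN₁ : N₁ = q * M)
    (ha : N₁ * 1 ∣ N₂) (hb : N₁ * q ∣ N₂) (L : Type*) [Field L] [CharZero L] :
    Module.finrank L (LinearMap.ker
      ((((degMat 1 ha).map (Int.cast : ℤ → L)).mulVecLin).coprod
        (((degMat q hb).map (Int.cast : ℤ → L)).mulVecLin))) ≤ Period.rankH M := by
  refine le_trans (le_of_eq ?_)
    (finrank_ker_le_of_complex _ (finrank_ker_complex_le hq hN₁ ha hb) L)
  refine ((pairEquiv _ L).ofSubmodules _ _ ?_).finrank_eq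
  rw [Submodule.map_equiv_eq_comap_symm]
  ext v
  obtain ⟨⟨x, y⟩, rfl⟩ := (pairEquiv _ L).surjective v
  rw [Submodule.mem_comap, LinearEquiv.coe_coe, LinearEquiv.symm_apply_apply,
    LinearMap.mem_ker, LinearMap.mem_ker, mulVecLin_apply, pairEquiv_apply, joinCols_mulVec]
  simp

end Common

/-- A rational isomorphism anticommuting with the involution and commuting with the Hecke ring. -/
theorem exists_theta (N : ℕ) [NeZero N] :
    ∃ θ : HeckeH.HMat N, θ.det ≠ 0 ∧ (∀ t, Commute θ (HeckeH.heckeMatHom N t)) ∧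
      θ * HeckeH.jMat N = -(HeckeH.jMat N * θ) := by
  let sw : (Fin (Period.rankH N) → ℂ) →ₗ[ℂ] (Fin (Period.rankH N) → ℂ) :=
    (HeckeH.periodCoord N).toLinearMap ∘ₗ
      (LinearEquiv.prodComm ℂ (CuspForm (Gamma0 N) 2) (CuspForm (Gamma0 N) 2)).toLinearMap ∘ₗ
        (HeckeH.periodCoord N).symm.toLinearMap
  let X := LinearMap.toMatrix' sw
  have hX : ∀ p, X *ᵥ HeckeH.periodCoord N p = HeckeH.periodCoord N (p.2, p.1) := fun p => by
    rw [LinearMap.toMatrix'_mulVec]
    simp [sw, Prod.swap]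
  have hext : ∀ U V : Matrix (Fin (Period.rankH N)) (Fin (Period.rankH N)) ℂ,
      (∀ p, U *ᵥ HeckeH.periodCoord N p = V *ᵥ HeckeH.periodCoord N p) → U = V :=
    fun U V h => Matrix.mulVec_injective (funext fun v => by
      obtain ⟨p, rfl⟩ := (HeckeH.periodCoord N).surjective v
      exact h p)
  have hdet : X.det ≠ 0 := by
    have h2 : X * X = 1 := hext _ _ fun p => by rw [← mulVec_mulVec, hX, hX, one_mulVec]
    intro h
    have := congrArg Matrix.det h2
    rw [det_mul, h, mul_zero, det_one] at this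
    exact zero_ne_one this
  have hJ : ∀ p, (HeckeH.jMat N).map (Int.cast : ℤ → ℂ) *ᵥ HeckeH.periodCoord N p =
      HeckeH.periodCoord N (p.1, -p.2) := fun p =>
    HeckeH.mulVec_periodCoord N (by rw [HeckeH.matAct_jMat, HeckeH.jH_ppH])
  obtain ⟨θ, hθ, hθc⟩ := exists_int_solution
    (fun o : Option (CuspForm.heckeAlgebra N 2 (∅ : Set ℕ)) =>
      o.elim (HeckeH.jMat N) (HeckeH.heckeMat N))
    (fun o : Option (CuspForm.heckeAlgebra N 2 (∅ : Set ℕ)) =>
      o.elim (-HeckeH.jMat N) (HeckeH.heckeMat N))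
    X hdet (by
      rintro (_ | t) <;> refine hext _ _ fun p => ?_ <;> simp only [Option.elim, ← mulVec_mulVec]
      · rw [hX, hJ, Matrix.map_neg _ Int.cast_neg, neg_mulVec, mulVec_neg, hJ, hX, ← map_neg]
        simp
      · rw [hX, HeckeH.mulVec_periodCoord N (HeckeH.heckeMat_spec N t (p.2, p.1)),
          HeckeH.mulVec_periodCoord N (HeckeH.heckeMat_spec N t p), hX])
  refine ⟨θ, hθ, fun t => (hθc (some t)).symm, ?_⟩
  have := hθc none
  simp only [Option.elim, Matrix.mul_neg] at this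
  rw [this, neg_neg]

end FLTAgent.Degen
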