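import Fermat.Agent.Degen.Coord

/-!
# Degeneracy maps on characters

For `N * d ∣ M` the conjugation by `diag (d, 1)` is an injective homomorphism
`degHom d : Γ₀(M) →* Γ₀(N)`, `(a, b; c, e) ↦ (a, d b; c / d, e)`. Composition with it is the
pullback `degH d : Period.H N R A → Period.H M R A`, with integral matrix `degMat d`
(`rectAct_degMat`); it commutes with the involution (`degH_jH`).
-/

set_option autoImplicit false
set_option linter.unusedSectionVars false

open CongruenceSubgroup ModularCurve.Period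
open scoped MatrixGroups
open FLTAgent.HeckeH (M2 matOf mkGamma0)

noncomputable section

namespace FLTAgent.Degen

/-- The matrix `diag (d, 1)`. -/
def dMat (d : ℕ) : M2 := !![(d : ℤ), 0; 0, 1]

theorem det_dMat {d : ℕ} [NeZero d] : (dMat d).det ≠ 0 := by
  rw [dMat, Matrix.det_fin_two_of]; simp [NeZero.ne d]

theorem dMat_one : dMat 1 = 1 := by simp [dMat, Matrix.one_fin_two]

variable {N M : ℕ}

/-- The image `(a, d b; c / d, e)` of an element of `Γ₀(M)`. -/
def degElt (d : ℕ) [NeZero d] (h : N * d ∣ M) (γ : Gamma0 M) : Gamma0 N :=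
  mkGamma0 (matOf γ 0 0) ((d : ℤ) * matOf γ 0 1) (matOf γ 1 0 / (d : ℤ)) (matOf γ 1 1)
    (by
      have hd : (d : ℤ) ∣ matOf γ 1 0 := (Int.natCast_dvd_natCast.mpr
        (dvd_trans (dvd_mul_left d N) h)).trans (HeckeH.matOf_dvd γ)
      rw [mul_assoc, mul_comm ((d : ℤ)), mul_assoc, Int.ediv_mul_cancel hd]
      exact HeckeH.det_entries γ)
    (by
      have h1 : ((N : ℤ) * d) ∣ matOf γ 1 0 :=
        (by exact_mod_cast h : ((N : ℤ) * d) ∣ (M : ℤ)).trans (HeckeH.matOf_dvd γ)
      exact Int.dvd_ediv_of_mul_dvd (by rwa [mul_comm] at h1))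

theorem dMat_mul_matOf (d : ℕ) [NeZero d] (h : N * d ∣ M) (γ : Gamma0 M) :
    dMat d * matOf γ = matOf (degElt d h γ) * dMat d := by
  have hd : (d : ℤ) ∣ matOf γ 1 0 := (Int.natCast_dvd_natCast.mpr
    (dvd_trans (dvd_mul_left d N) h)).trans (HeckeH.matOf_dvd γ)
  rw [degElt, HeckeH.matOf_mkGamma0, dMat, Matrix.eta_fin_two (matOf γ), Matrix.mul_fin_two,
    Matrix.mul_fin_two]
  simp [Int.ediv_mul_cancel hd, mul_comm]

/-- `γ ↦ diag (d, 1) γ diag (d, 1)⁻¹` from `Γ₀(M)` to `Γ₀(N)`. -/
def degHom (d : ℕ) [NeZero d] (h : N * d ∣ M) : Gamma0 M →* Gamma0 N where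
  toFun := degElt d h
  map_one' := HeckeH.matOf_injective (HeckeH.mul_right_cancel_of_det_ne (det_dMat (d := d))
    (by rw [← dMat_mul_matOf]; simp))
  map_mul' γ γ' := HeckeH.matOf_injective (HeckeH.mul_right_cancel_of_det_ne (det_dMat (d := d))
    (by
      rw [← dMat_mul_matOf, HeckeH.matOf_mul, HeckeH.matOf_mul, ← Matrix.mul_assoc,
        dMat_mul_matOf d h γ, Matrix.mul_assoc, dMat_mul_matOf d h γ', ← Matrix.mul_assoc]))

theorem dMat_mul_degHom (d : ℕ) [NeZero d] (h : N * d ∣ M) (γ : Gamma0 M) :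
    dMat d * matOf γ = matOf (degHom d h γ) * dMat d := dMat_mul_matOf d h γ

theorem degHom_injective (d : ℕ) [NeZero d] (h : N * d ∣ M) :
    Function.Injective (degHom d h) := by
  intro γ γ' e
  refine HeckeH.matOf_injective ?_
  have h1 : dMat d * matOf γ = dMat d * matOf γ' := by
    rw [dMat_mul_degHom d h, dMat_mul_degHom d h, e]
  have h2 := congrArg (fun x : M2 => (dMat d).adjugate * x) h1
  simp only [← Matrix.mul_assoc, Matrix.adjugate_mul, Matrix.smul_mul, Matrix.one_mul] at h2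
  ext a b
  have h3 := congrFun (congrFun h2 a) b
  simp only [Matrix.smul_apply, smul_eq_mul] at h3
  exact mul_left_cancel₀ det_dMat h3

theorem trace_degHom (d : ℕ) [NeZero d] (h : N * d ∣ M) (γ : Gamma0 M) :
    (matOf (degHom d h γ)).trace = (matOf γ).trace :=
  (HeckeH.trace_eq_of_semiconj det_dMat (dMat_mul_degHom d h γ)).symm

theorem degHom_one_coe (h : N * 1 ∣ M) (γ : Gamma0 M) :
    (degHom 1 h γ : SL(2, ℤ)) = (γ : SL(2, ℤ)) := by
  have := dMat_mul_degHom 1 h γ
  rw [dMat_one, Matrix.one_mul, Matrix.mul_one] at this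
  exact Subtype.ext this.symm

section H

variable {R A : Type*} [Semiring R] [AddCommGroup A] [Module R A]

/-- Pullback of characters along a degeneracy map. -/
def degH (R A : Type*) [Semiring R] [AddCommGroup A] [Module R A] (d : ℕ) [NeZero d]
    (h : N * d ∣ M) : Period.H N R A →ₗ[R] Period.H M R A where
  toFun φ := ⟨(φ : Additive (Gamma0 N) →+ A).comp (MonoidHom.toAdditive (degHom d h)),
    ⟨fun γ hγ => Period.H_parabolic φ (γ := degHom d h γ) (by
        show (matOf (degHom d h γ)).trace ^ 2 = 4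
        rw [trace_degHom]
        exact hγ),
      fun _ hγ => Period.H_finOrder φ ((degHom d h).isOfFinOrder hγ)⟩⟩
  map_add' _ _ := rfl
  map_smul' _ _ := rfl

@[simp] theorem degH_apply (d : ℕ) [NeZero d] (h : N * d ∣ M) (φ : Period.H N R A) (γ : Gamma0 M) :
    (degH R A d h φ : Additive (Gamma0 M) →+ A) (Additive.ofMul γ) =
      (φ : Additive (Gamma0 N) →+ A) (Additive.ofMul (degHom d h γ)) := rfl

variable [NeZero N] [NeZero M]

/-- The matrix of a degeneracy map. -/
def degMat (d : ℕ) [NeZero d] (h : N * d ∣ M) : RMat M N := rectMat (degH ℤ ℤ d h)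

theorem rectAct_degMat (d : ℕ) [NeZero d] (h : N * d ∣ M) :
    rectAct R A (degMat d h) = degH R A d h := by
  refine rectAct_rectMat _ _ fun φ i => ?_
  simp only [degH_apply]
  exact Period.H_decomp φ _

/-- Degeneracy maps commute with the involution. -/
theorem degH_jH (d : ℕ) [NeZero d] (h : N * d ∣ M) (φ : Period.H N R A) :
    degH R A d h (HeckeH.jH N R A φ) = HeckeH.jH M R A (degH R A d h φ) := by
  refine Subtype.ext (AddMonoidHom.ext fun γ => ?_)
  obtain ⟨γ, rfl⟩ := Additive.ofMul.surjective γ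
  simp only [degH_apply, HeckeH.coe_jH, charInvolution_apply, toMul_ofMul]
  congr 2
  refine HeckeH.matOf_injective (HeckeH.mul_right_cancel_of_det_ne (det_dMat (d := d)) ?_)
  rw [← dMat_mul_degHom]
  show jConjMat (matOf (degHom d h γ)) * dMat d = dMat d * jConjMat (matOf γ)
  have hd : jConjMat (dMat d) = dMat d := by
    ext i j
    fin_cases i <;> fin_cases j <;> simp [dMat]
  rw [← hd, ← jConjMat_mul, ← jConjMat_mul, ← dMat_mul_degHom]

end H

end FLTAgent.Degen
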