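import Fermat.Agent.HeckeH.Action

/-!
# Integer matrices between the coordinate systems of two levels

`Period.evalEquiv` identifies the characters `Period.H N R A` with `Fin (Period.rankH N) → A`.
For `X : RMat M N` (an integer matrix) `rectAct R A X` is the induced map `H N R A → H M R A`.
An operator which is natural in the coefficients is the action of the matrix `rectMat` of its
values on integral characters (`rectAct_rectMat`); `rectAct_int_injective` gives uniqueness and
`mulVec_evalEquiv` expresses `rectAct` in coordinates.
-/

set_option autoImplicit false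
set_option linter.unusedSectionVars false

open CongruenceSubgroup ModularCurve.Period
open scoped MatrixGroups

noncomputable section

namespace FLTAgent.Degen

/-- Integer matrices from the coordinates at level `N` to the coordinates at level `M`. -/
abbrev RMat (M N : ℕ) [NeZero M] [NeZero N] : Type :=
  Matrix (Fin (Period.rankH M)) (Fin (Period.rankH N)) ℤ

variable {N M L : ℕ} [NeZero N] [NeZero M] [NeZero L]

/-- Integer matrices acting between `Fin r → A`. -/
def rectFun (R A : Type*) [Semiring R] [AddCommGroup A] [Module R A] (X : RMat M N) :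
    (Fin (Period.rankH N) → A) →ₗ[R] (Fin (Period.rankH M) → A) where
  toFun x i := ∑ j, X i j • x j
  map_add' x y := by ext i; simp [smul_add, Finset.sum_add_distrib]
  map_smul' r x := by ext i; simp [Finset.smul_sum, smul_comm r]

/-- Integer matrices acting between `H N R A` and `H M R A`. -/
def rectAct (R A : Type*) [Semiring R] [AddCommGroup A] [Module R A] (X : RMat M N) :
    Period.H N R A →ₗ[R] Period.H M R A :=
  (Period.evalEquiv M R A).symm.toLinearMap ∘ₗ rectFun R A X ∘ₗ
    (Period.evalEquiv N R A).toLinearMap

variable {R A : Type*} [Semiring R] [AddCommGroup A] [Module R A]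

theorem evalEquiv_rectAct (X : RMat M N) (φ : Period.H N R A) (i : Fin (Period.rankH M)) :
    Period.evalEquiv M R A (rectAct R A X φ) i = ∑ j, X i j • Period.evalEquiv N R A φ j := by
  simp [rectAct, rectFun]

theorem rectAct_mul (X : RMat L M) (Y : RMat M N) (φ : Period.H N R A) :
    rectAct R A (X * Y) φ = rectAct R A X (rectAct R A Y φ) := by
  refine (Period.evalEquiv L R A).injective (funext fun i => ?_)
  simp only [evalEquiv_rectAct, Matrix.mul_apply, Finset.smul_sum, Finset.sum_smul, mul_smul]
  exact Finset.sum_comm

theorem rectAct_eq_matAct (X : HeckeH.HMat N) : rectAct R A X = HeckeH.matAct N R A X := by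
  refine LinearMap.ext fun φ => (Period.evalEquiv N R A).injective (funext fun i => ?_)
  rw [evalEquiv_rectAct, HeckeH.evalEquiv_matAct]

theorem rectAct_apply (X : RMat M N) (φ : Period.H N R A) (γ : Additive (Gamma0 M)) :
    (rectAct R A X φ : Additive (Gamma0 M) →+ A) γ =
      ∑ i, (Period.coordH M i : Additive (Gamma0 M) →+ ℤ) γ •
        ∑ j, X i j • (φ : Additive (Gamma0 N) →+ A) (Additive.ofMul (Period.gen N j)) := by
  rw [Period.H_decomp]
  simp only [← Period.evalEquiv_apply, evalEquiv_rectAct]

/-- The matrix of an operator given on integral characters. -/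
def rectMat (T : Period.H N ℤ ℤ → Period.H M ℤ ℤ) : RMat M N :=
  Matrix.of fun i j =>
    (T (Period.coordH N j) : Additive (Gamma0 M) →+ ℤ) (Additive.ofMul (Period.gen M i))

/-- An operator natural in the coefficients is given by its matrix. -/
theorem rectAct_rectMat (T : Period.H N ℤ ℤ → Period.H M ℤ ℤ)
    (T' : Period.H N R A →ₗ[R] Period.H M R A)
    (h : ∀ (φ : Period.H N R A) (i : Fin (Period.rankH M)),
      (T' φ : Additive (Gamma0 M) →+ A) (Additive.ofMul (Period.gen M i)) =
        ∑ j, (T (Period.coordH N j) : Additive (Gamma0 M) →+ ℤ) (Additive.ofMul (Period.gen M i)) •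
          (φ : Additive (Gamma0 N) →+ A) (Additive.ofMul (Period.gen N j))) :
    rectAct R A (rectMat T) = T' := by
  refine LinearMap.ext fun φ => (Period.evalEquiv M R A).injective (funext fun i => ?_)
  rw [evalEquiv_rectAct, Period.evalEquiv_apply, h]
  simp only [rectMat, Matrix.of_apply, Period.evalEquiv_apply]

theorem rectAct_int_apply (X : RMat M N) (i : Fin (Period.rankH M)) (j : Fin (Period.rankH N)) :
    (rectAct ℤ ℤ X (Period.coordH N j) : Additive (Gamma0 M) →+ ℤ)
      (Additive.ofMul (Period.gen M i)) = X i j := by
  rw [← Period.evalEquiv_apply, evalEquiv_rectAct, Finset.sum_eq_single j]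
  · rw [Period.evalEquiv_apply, Period.coordH_gen, if_pos rfl]; simp
  · intro k _ hk; rw [Period.evalEquiv_apply, Period.coordH_gen, if_neg (Ne.symm hk)]; simp
  · intro h; exact absurd (Finset.mem_univ j) h

theorem rectAct_int_injective {X Y : RMat M N}
    (h : ∀ φ, rectAct ℤ ℤ X φ = rectAct ℤ ℤ Y φ) : X = Y := by
  ext i j
  rw [← rectAct_int_apply X i j, ← rectAct_int_apply Y i j, h]

/-- The coordinates of `rectAct`. -/
theorem mulVec_evalEquiv {K : Type*} [CommRing K] (X : RMat M N) (φ : Period.H N K K) :
    (X.map (Int.castRingHom K)).mulVec (Period.evalEquiv N K K φ) =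
      Period.evalEquiv M K K (rectAct K K X φ) := by
  funext i
  rw [evalEquiv_rectAct]
  simp [Matrix.mulVec, dotProduct, zsmul_eq_mul]

end FLTAgent.Degen
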