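import Fermat.Agent.Degen.Model
import Fermat.Agent.Degen.Linear
import Fermat.Agent.Local.Interface

/-!
# Assembling the data for bad reduction at levels `q M` and `q² M`

From canonical models at the levels `N₀, q N₀, M, q M, q² M` (`M` an auxiliary multiple of
`N₀`, see `auxLevel`), the toric part at level `q M` and the bound on inertia invariants at
level `q² M`, `nonempty_dataOneCore`, `nonempty_dataOne` and `nonempty_dataTwo` build
`Local.DataOneCore`, `Local.DataOne` and `Local.DataTwo`, using the maps `galMap`, `degMap`,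
`degSquare` and the lemmas `degTw_injective`, `finrank_ker_degTw_le`, `exists_theta_model`.
-/

set_option autoImplicit false
set_option maxHeartbeats 1000000

noncomputable section

open CongruenceSubgroup ModularCurve Matrix
open scoped MatrixGroups

namespace FLTAgent.Degen

local notation "Qb" => AlgebraicClosure ℚ
local notation "Γℚ" => (AlgebraicClosure ℚ ≃ₐ[ℚ] AlgebraicClosure ℚ)

section Elementary

variable {N M N' M' : ℕ}

/-- The preimage condition of a cartesian square. -/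
theorem degHom_mem_iff' (d : ℕ) [NeZero d] (hN : N * d ∣ N') (hM : M * d ∣ M')
    (hl : M' ∣ Nat.lcm N' M) (γ : Gamma0 N') :
    ((degHom d hN γ : Gamma0 N) : SL(2, ℤ)) ∈ Gamma0 M ↔ (γ : SL(2, ℤ)) ∈ Gamma0 M' := by
  rw [Gamma0_mem, Gamma0_mem, ZMod.intCast_zmod_eq_zero_iff_dvd,
    ZMod.intCast_zmod_eq_zero_iff_dvd]
  show (M : ℤ) ∣ HeckeH.matOf γ 1 0 / (d : ℤ) ↔ (M' : ℤ) ∣ HeckeH.matOf γ 1 0
  have hγ := HeckeH.matOf_dvd γ
  have hdγ : (d : ℤ) ∣ HeckeH.matOf γ 1 0 :=
    (Int.natCast_dvd_natCast.mpr ((dvd_mul_left d N).trans hN)).trans hγ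
  rw [Int.dvd_div_iff_mul_dvd hdγ]
  refine ⟨fun h => ?_, fun h => ?_⟩
  · refine (Int.natCast_dvd_natCast.mpr hl).trans ?_
    rw [← Int.natAbs_dvd_natAbs, Int.natAbs_natCast]
    refine Nat.lcm_dvd ?_ ?_
    · exact Int.natCast_dvd.mp hγ
    · exact Int.natCast_dvd.mp ((dvd_mul_left (M : ℤ) d).trans h)
  · refine dvd_trans ?_ h
    rw [mul_comm]
    exact_mod_cast hM

end Elementary

section Twisted

variable {q M M₁ M₂ : ℕ} [NeZero q] [NeZero M] [NeZero M₁] [NeZero M₂]

theorem frickeMat_mulVec_eq_zero {N : ℕ} [NeZero N] {K : Type*} [CommRing K]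
    (x : Fin (Period.rankH N) → K) :
    (frickeMat N).map (Int.cast : ℤ → K) *ᵥ x = 0 ↔ x = 0 := by
  refine ⟨fun h => ?_, fun h => by rw [h, mulVec_zero]⟩
  have h2 := congrArg (fun v => (frickeMat N).map (Int.cast : ℤ → K) *ᵥ v) h
  simp only [mulVec_mulVec, mulVec_zero] at h2
  have e : (frickeMat N).map (Int.cast : ℤ → K) * (frickeMat N).map (Int.cast : ℤ → K) = 1 := by
    show (frickeMat N).map (Int.castRingHom K) * (frickeMat N).map (Int.castRingHom K) = 1
    rw [← Matrix.map_mul, frickeMat_mul_self]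
    simp
  rw [e, one_mulVec] at h2
  exact h2

/-- The two degeneracy maps from a level prime to `q` are jointly injective, in twisted coordinates. -/
theorem degTw_injective (hq : q.Coprime M) (hq2 : 2 ≤ q) (ha : M * 1 ∣ M₁) (hb : M * q ∣ M₁)
    {x y : Fin (Period.rankH M) → ℤ} (h : degTw 1 ha *ᵥ x + degTw q hb *ᵥ y = 0) :
    x = 0 ∧ y = 0 := by
  have hF : ∀ {N : ℕ} [NeZero N] (v : Fin (Period.rankH N) → ℤ),
      frickeMat N *ᵥ v = 0 ↔ v = 0 := fun {N} _ v => by
    have := frickeMat_mulVec_eq_zero (N := N) (K := ℤ) v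
    rwa [show (Int.cast : ℤ → ℤ) = id from funext fun _ => Int.cast_id, Matrix.map_id] at this
  rw [degTw, degTw, ← mulVec_mulVec, ← mulVec_mulVec, ← mulVec_mulVec, ← mulVec_mulVec,
    ← mulVec_add, hF] at h
  obtain ⟨h1, h2⟩ := degMat_injective hq hq2 ha hb h
  exact ⟨(hF x).mp h1, (hF y).mp h2⟩

/-- The common kernel from level `q M` has rank at most that of level `M`, in twisted coordinates. -/
theorem finrank_ker_degTw_le (hq : q.Prime) (hM₁ : M₁ = q * M) (ha : M₁ * 1 ∣ M₂)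
    (hb : M₁ * q ∣ M₂) (L : Type) [Field L] [CharZero L] :
    Module.finrank L (LinearMap.ker
      (((Local.icast L (degTw 1 ha)).mulVecLin).coprod ((Local.icast L (degTw q hb)).mulVecLin))) ≤
        Period.rankH M := by
  refine le_trans ?_ (finrank_ker_degMat_le hq hM₁ ha hb L)
  let W := (frickeMat M₁).map (Int.cast : ℤ → L)
  have hmap : ∀ (d : ℕ) [NeZero d] (h : M₁ * d ∣ M₂),
      Local.icast L (degTw (N := M₁) (M := M₂) d h) =
      (frickeMat M₂).map (Int.cast : ℤ → L) * (degMat d h).map (Int.cast : ℤ → L) * W := by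
    intro d _ h
    show (degTw (N := M₁) (M := M₂) d h).map (Int.castRingHom L) = _
    ext i j
    simp [degTw, Matrix.mul_apply, W]
  have hmaps : ∀ v ∈ LinearMap.ker (((Local.icast L (degTw 1 ha)).mulVecLin).coprod
      ((Local.icast L (degTw q hb)).mulVecLin)),
      W.mulVecLin.prodMap W.mulVecLin v ∈ LinearMap.ker
        ((((degMat 1 ha).map (Int.cast : ℤ → L)).mulVecLin).coprod
          (((degMat q hb).map (Int.cast : ℤ → L)).mulVecLin)) := by
    rintro ⟨x, y⟩ h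
    simp only [LinearMap.mem_ker, LinearMap.coprod_apply, mulVecLin_apply, hmap, ← mulVec_mulVec,
      ← mulVec_add, frickeMat_mulVec_eq_zero] at h
    simpa using h
  refine LinearMap.finrank_le_finrank_of_injective
    (f := (W.mulVecLin.prodMap W.mulVecLin).restrict hmaps) ?_
  rintro ⟨⟨x, y⟩, hxy⟩ ⟨⟨x', y'⟩, hxy'⟩ e
  have e' := congrArg Subtype.val e
  simp only [LinearMap.coe_restrict_apply, LinearMap.prodMap_apply, mulVecLin_apply,
    Prod.mk.injEq] at e'
  have hinj : ∀ u v : Fin (Period.rankH M₁) → L, W *ᵥ u = W *ᵥ v → u = v := fun u v huv =>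
    sub_eq_zero.mp ((frickeMat_mulVec_eq_zero (u - v)).mp (by rw [mulVec_sub]; exact sub_eq_zero.mpr huv))
  exact Subtype.ext (Prod.ext (hinj _ _ e'.1) (hinj _ _ e'.2))

end Twisted

section Maps

variable {ι : Qb →+* ℂ} {p : ℕ} [Fact p.Prime] {N M : ℕ} [NeZero N] [NeZero M]
  (cN : CanModel ι N p) (cM : CanModel ι M p)

/-- A degeneracy map between canonical models. -/
def galMap (d : ℕ) [NeZero d] (h : N * d ∣ M) :
    Local.GalMap cN.toGalModel cM.toGalModel where
  mat := degTw d h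
  galois σ := degTw_galois ι cN.isGal cM.isGal d h σ

/-- A degeneracy map between canonical models, with its Hecke compatibility. -/
def degMap (d : ℕ) [NeZero d] (h : N * d ∣ M) :
    Local.DegMap cN.toGalModel cM.toGalModel where
  toGalMap := galMap cN cM d h
  hecke _ hℓ hN hM := degTw_hecke hℓ d h hN hM _

/-- The eigenspace isomorphism in canonical coordinates. -/
theorem exists_theta_model :
    ∃ θ : Matrix (Fin cN.toGalModel.r) (Fin cN.toGalModel.r) ℤ, θ.det ≠ 0 ∧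
      (∀ t, Commute θ (cN.toGalModel.τ t)) ∧
      Local.icast ℤ_[p] θ * cN.toGalModel.M cN.toGalModel.cc =
        -(cN.toGalModel.M cN.toGalModel.cc * Local.icast ℤ_[p] θ) := by
  obtain ⟨θ, h1, h2, h3⟩ := exists_theta N
  refine ⟨θ, h1, h2, ?_⟩
  have e := congrArg (Int.castRingHom ℤ_[p]).mapMatrix h3
  simp only [map_mul, map_neg, RingHom.mapMatrix_apply] at e
  show (θ.map (Int.castRingHom ℤ_[p])) * cN.MM cN.cc =
    -(cN.MM cN.cc * θ.map (Int.castRingHom ℤ_[p]))
  rw [cN.MM_cc, Matrix.mul_neg, Matrix.neg_mul, neg_neg, e, neg_neg]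

end Maps

section Square

variable {ι : Qb →+* ℂ} {p : ℕ} [Fact p.Prime] {A₀ A₁ B₀ B₁ : ℕ} [NeZero A₀] [NeZero A₁]
  [NeZero B₀] [NeZero B₁]

/-- The transfer square of degeneracy maps. -/
def degSquare (g₀ : CanModel ι A₀ p) (g₁ : CanModel ι A₁ p) (h₀ : CanModel ι B₀ p)
    (h₁ : CanModel ι B₁ p) (q : ℕ) [NeZero q] (hA1 : A₀ * 1 ∣ A₁) (hAq : A₀ * q ∣ A₁)
    (hB1 : B₀ * 1 ∣ B₁) (hBq : B₀ * q ∣ B₁) (hup : A₁ * 1 ∣ B₁) (hl : B₁ ∣ Nat.lcm A₁ B₀)
    (hidx : (subG0 A₀ B₀).index = (subG0 A₁ B₁).index) :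
    Local.DegSquare g₀.toGalModel g₁.toGalModel h₀.toGalModel h₁.toGalModel where
  a₀ := degMap g₀ g₁ 1 hA1
  b₀ := degMap g₀ g₁ q hAq
  a := galMap h₀ h₁ 1 hB1
  b := galMap h₀ h₁ q hBq
  up := galMap g₁ h₁ 1 hup
  d := (subG0 A₁ B₁).index
  d_ne_zero := Subgroup.FiniteIndex.index_ne_zero
  down := corTw (N := A₁) (M := B₁)
  downA := corTw (N := A₀) (M := B₀)
  downB := corTw (N := A₀) (M := B₀)
  down_up := (corTw_degTw hup).trans (Nat.cast_smul_eq_nsmul ℤ _ _).symm
  down_a := corTw_degTw_comm 1 hA1 hB1 (degHom_mem_iff' 1 hA1 hB1 hl) hidx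
  down_b := corTw_degTw_comm q hAq hBq (degHom_mem_iff' q hAq hBq hl) hidx

end Square

section Aux

/-- The auxiliary level. -/
def auxLevel (q N₀ : ℕ) : ℕ := Nat.lcm N₀ (if q = 2 then 9 else 4)

theorem dvd_auxLevel (q N₀ : ℕ) : N₀ ∣ auxLevel q N₀ := Nat.dvd_lcm_left _ _

theorem auxLevel_ne_zero (q N₀ : ℕ) [NeZero N₀] : NeZero (auxLevel q N₀) :=
  ⟨Nat.lcm_ne_zero (NeZero.ne N₀) (by split_ifs <;> norm_num)⟩

theorem coprime_auxLevel {q N₀ : ℕ} (hq : q.Prime) (h : ¬ q ∣ N₀) :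
    q.Coprime (auxLevel q N₀) := by
  rw [hq.coprime_iff_not_dvd]
  intro hd
  rcases hq.dvd_mul.mp (hd.trans (Nat.lcm_dvd_mul _ _)) with h1 | h1
  · exact h h1
  · split_ifs at h1 with h2
    · subst h2; norm_num at h1
    · have : q ∣ 2 ^ 2 := by norm_num; exact h1
      exact h2 ((Nat.prime_dvd_prime_iff_eq hq Nat.prime_two).mp (hq.dvd_of_dvd_pow this))

theorem aux_dvd {q N₀ : ℕ} (hq : q.Prime) :
    (q = 2 → 9 ∣ auxLevel q N₀) ∧ (q ≠ 2 → 4 ∣ auxLevel q N₀) := by
  refine ⟨fun h => ?_, fun h => ?_⟩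
  · subst h; exact Nat.dvd_lcm_right _ _
  · rw [auxLevel, if_neg h]; exact Nat.dvd_lcm_right _ _

variable {ι : Qb →+* ℂ} {p : ℕ} [Fact p.Prime] {q N₀ M : ℕ} [NeZero q] [NeZero N₀] [NeZero M]

/-- `DataOneCore` from the toric part at level `q M`. -/
theorem nonempty_dataOneCore (hq : q.Prime) (hM : q.Coprime M) (hNM : N₀ ∣ M)
    (g₀ : CanModel ι N₀ p) (g₁ : CanModel ι (q * N₀) p) (h₀ : CanModel ι M p)
    (h₁ : CanModel ι (q * M) p) (k : ℕ)
    (hrank : Period.rankH (q * M) ≤ 2 * Period.rankH M + 2 * k)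
    (htor : Local.HasToricPart h₁.toGalModel q k) :
    Nonempty (Local.DataOneCore p q N₀ (q * N₀) M (q * M)) := by
  obtain ⟨θ, hθ, hθc, hθa⟩ := exists_theta_model h₁
  exact ⟨{
    g₀ := g₀.toGalModel
    g₁ := g₁.toGalModel
    h₀ := h₀.toGalModel
    h₁ := h₁.toGalModel
    sq := degSquare g₀ g₁ h₀ h₁ q (by rw [mul_one]; exact dvd_mul_left _ _)
      (by rw [mul_comm]) (by rw [mul_one]; exact dvd_mul_left _ _) (by rw [mul_comm])
      (by rw [mul_one]; exact Nat.mul_dvd_mul_left q hNM)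
      (hM.mul_dvd_of_dvd_of_dvd ((dvd_mul_right q N₀).trans (Nat.dvd_lcm_left _ _))
        (Nat.dvd_lcm_right _ _))
      (index_subG0_mul hNM hM)
    not_dvd := hq.coprime_iff_not_dvd.mp hM
    deg_injective := fun _ _ h => degTw_injective hM hq.two_le _ _ h
    k := k
    rank_le := hrank
    toric := htor
    θ := θ
    θ_det := hθ
    θ_comm := hθc
    θ_anti := hθa }⟩

/-- `DataOne` from the toric part at level `q M` and the bound at level `q² M`. -/
theorem nonempty_dataOne (hq : q.Prime) (hM : q.Coprime M) (hNM : N₀ ∣ M)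
    (g₀ : CanModel ι N₀ p) (g₁ : CanModel ι (q * N₀) p) (h₀ : CanModel ι M p)
    (h₁ : CanModel ι (q * M) p) (k : ℕ)
    (hrank : Period.rankH (q * M) ≤ 2 * Period.rankH M + 2 * k)
    (htor : Local.HasToricPart h₁.toGalModel q k) (h₂ : CanModel ι (q ^ 2 * M) p)
    (hfix : ∀ A : ValuationSubring Qb, A.LiesOverPrime q →
      ∀ (L : Type) [Field L] [CharZero L] (f : ℤ_[p] →+* L),
        Module.finrank L (⨅ i ∈ A.inertiaSubgroupIn ℚ,
          LinearMap.ker ((f.mapMatrix (h₂.MM i)).mulVecLin - LinearMap.id) :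
            Submodule L (Fin (Period.rankH (q ^ 2 * M)) → L)) ≤
          Period.rankH M + Period.rankH (q * M)) :
    Nonempty (Local.DataOne p q N₀ (q * N₀) M (q * M)) := by
  obtain ⟨θ, hθ, hθc, hθa⟩ := exists_theta_model h₁
  let a' := galMap h₁ h₂ 1 (by rw [mul_one]; exact ⟨q, by ring⟩)
  let b' := galMap h₁ h₂ q ⟨1, by ring⟩
  have hone : ∀ A : ValuationSubring Qb, A.LiesOverPrime q →
      ∀ (L : Type) [Field L] [CharZero L] (f : ℤ_[p] →+* L),
        Module.finrank L (⨅ i ∈ A.inertiaSubgroupIn ℚ,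
          LinearMap.ker ((f.mapMatrix (h₁.MM i)).mulVecLin - LinearMap.id) :
            Submodule L (Fin (Period.rankH (q * M)) → L)) ≤ 2 * Period.rankH M + k := by
    intro A hA L _ _ f
    have h1 := hfix A hA L f
    have hker : Module.finrank L (LinearMap.ker
        (((Local.icast L a'.mat).mulVecLin).coprod ((Local.icast L b'.mat).mulVecLin))) ≤
        Period.rankH M := finrank_ker_degTw_le hq rfl _ _ L
    have := @Local.fixed_one_le p _ (q * M) (q ^ 2 * M) _ _ h₁.toGalModel h₂.toGalModel a' b'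
      (Period.rankH M) k hrank L _ _ f {x | x ∈ A.inertiaSubgroupIn ℚ} hker h1
    exact this
  exact ⟨{
    g₀ := g₀.toGalModel
    g₁ := g₁.toGalModel
    h₀ := h₀.toGalModel
    h₁ := h₁.toGalModel
    sq := degSquare g₀ g₁ h₀ h₁ q (by rw [mul_one]; exact dvd_mul_left _ _)
      (by rw [mul_comm]) (by rw [mul_one]; exact dvd_mul_left _ _) (by rw [mul_comm])
      (by rw [mul_one]; exact Nat.mul_dvd_mul_left q hNM)
      (hM.mul_dvd_of_dvd_of_dvd ((dvd_mul_right q N₀).trans (Nat.dvd_lcm_left _ _))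
        (Nat.dvd_lcm_right _ _))
      (index_subG0_mul hNM hM)
    not_dvd := hq.coprime_iff_not_dvd.mp hM
    deg_injective := fun _ _ h => degTw_injective hM hq.two_le _ _ h
    k := k
    rank_le := hrank
    toric := htor
    θ := θ
    θ_det := hθ
    θ_comm := hθc
    θ_anti := hθa
    fixed_le := fun A hA L _ _ f => hone A hA L f }⟩

/-- `DataTwo` from the toric part at level `q M` and the bound at level `q² M`. -/
theorem nonempty_dataTwo (hq : q.Prime) (hM : q.Coprime M) (hNM : N₀ ∣ M)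
    (g₁ : CanModel ι (q * N₀) p) (g₂ : CanModel ι (q ^ 2 * N₀) p) (h₀ : CanModel ι M p)
    (h₁ : CanModel ι (q * M) p) (h₂ : CanModel ι (q ^ 2 * M) p) (k : ℕ)
    (hrank : Period.rankH (q * M) ≤ 2 * Period.rankH M + 2 * k)
    (htor : Local.HasToricPart h₁.toGalModel q k)
    (hfix : ∀ A : ValuationSubring Qb, A.LiesOverPrime q →
      ∀ (L : Type) [Field L] [CharZero L] (f : ℤ_[p] →+* L),
        Module.finrank L (⨅ i ∈ A.inertiaSubgroupIn ℚ,
          LinearMap.ker ((f.mapMatrix (h₂.MM i)).mulVecLin - LinearMap.id) :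
            Submodule L (Fin (Period.rankH (q ^ 2 * M)) → L)) ≤
          Period.rankH M + Period.rankH (q * M)) :
    Nonempty (Local.DataTwo p q (q * N₀) (q ^ 2 * N₀) M (q * M) (q ^ 2 * M)) := by
  have hM2 : (q ^ 2).Coprime M := hM.pow_left 2
  exact ⟨{
    g₁ := g₁.toGalModel
    g₂ := g₂.toGalModel
    h₀ := h₀.toGalModel
    h₁ := h₁.toGalModel
    h₂ := h₂.toGalModel
    sq := degSquare g₁ g₂ h₁ h₂ q (by rw [mul_one]; exact ⟨q, by ring⟩) ⟨1, by ring⟩
      (by rw [mul_one]; exact ⟨q, by ring⟩) ⟨1, by ring⟩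
      (by rw [mul_one]; exact Nat.mul_dvd_mul_left _ hNM)
      (hM2.mul_dvd_of_dvd_of_dvd ((dvd_mul_right _ N₀).trans (Nat.dvd_lcm_left _ _))
        ((dvd_mul_left M q).trans (Nat.dvd_lcm_right _ _)))
      ((index_subG0_mul hNM hM).symm.trans (index_subG0_mul hNM hM2))
    not_dvd := hq.coprime_iff_not_dvd.mp hM
    a := galMap h₀ h₁ 1 (by rw [mul_one]; exact dvd_mul_left _ _)
    b := galMap h₀ h₁ q (by rw [mul_comm])
    deg_injective := fun _ _ h => degTw_injective hM hq.two_le _ _ h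
    k := k
    rank_le := hrank
    toric := htor
    ker_le := fun L => finrank_ker_degTw_le hq rfl _ _ L
    fixed_le := hfix }⟩

end Aux

end FLTAgent.Degen
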