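import Fermat.Agent.Kronecker.HeckeGalois
import Fermat.Agent.HeckeH.Final
import Fermat.Agent.Torsion.Defs

/-!
# Degeneracy embeddings of the function fields over `ℚ̄`

`degBar d` is `y(q) ↦ y(q^d)` from `modularFunctionFieldBar N` to `modularFunctionFieldBar M`
for `N * d ∣ M`; it is integral and satisfies the fundamental identity. `degPic d` is the
pullback on divisor classes `JZero N →+ JZero M`, and `degPic_galois_smul` says that it commutes
with the action of Galois.
-/

set_option autoImplicit false
set_option linter.style.haveILetI false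

noncomputable section

open ModularCurve AlgebraicCurve

namespace FLTAgent.Degen

local notation "Qb" => AlgebraicClosure ℚ

variable {N M : ℕ} [NeZero N] [NeZero M]

theorem bar_le (h : N ∣ M) : modularFunctionFieldBar N ≤ modularFunctionFieldBar M := by
  rw [modularFunctionFieldBar, laurentBaseChange, IntermediateField.adjoin_le_iff]
  rintro _ ⟨y, hy, rfl⟩
  exact coeffEmb_mem_laurentBaseChange Qb (full_degeneracy_le h hy)

/-- `y(q) ↦ y(q^d)` from level `N` to level `M`. -/
def degBar (d : ℕ) [NeZero d] (h : N * d ∣ M) :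
    modularFunctionFieldBar N →ₐ[Qb] modularFunctionFieldBar M :=
  haveI : NeZero (N * d) := ⟨mul_ne_zero (NeZero.ne N) (NeZero.ne d)⟩
  (IntermediateField.inclusion (bar_le h)).comp (heckeBetaBar Qb N d)

theorem coe_degBar (d : ℕ) [NeZero d] (h : N * d ∣ M) (y : modularFunctionFieldBar N) :
    (degBar d h y : LaurentSeries Qb) = qExpand Qb d (y : LaurentSeries Qb) := rfl

theorem isFF (N : ℕ) [NeZero N] : FF.IsFF Qb (modularFunctionFieldBar N) := Kronecker.isFF_bar N

theorem degBar_isIntegral (d : ℕ) [NeZero d] (h : N * d ∣ M) :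
    (degBar d h).toRingHom.IsIntegral :=
  haveI := isFF N
  haveI := isFF M
  FF.isIntegral_alongFF _

theorem hasPrincipalDivisors_bar : HasPrincipalDivisors Qb (modularFunctionFieldBar M) :=
  Kronecker.hasPrincipalDivisors_bar M

instance : HasPrincipalDivisors Qb (modularFunctionFieldBar M) := hasPrincipalDivisors_bar

/-- The fundamental identity holds along `degBar`. -/
theorem degBar_fundamentalIdentity (d : ℕ) [NeZero d] (h : N * d ∣ M) :
    FundamentalIdentityAlong Qb (degBar d h) (degBar_isIntegral d h) :=
  haveI := isFF N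
  haveI := isFF M
  FF.fundamentalIdentityAlong _ _ (FF.separableAlong _)

/-- Pullback of divisor classes along a degeneracy map. -/
def degPic (d : ℕ) [NeZero d] (h : N * d ∣ M) : JZero N →+ JZero M :=
  Torsion.picPullback (degBar d h) (degBar_isIntegral d h) (degBar_fundamentalIdentity d h)

theorem degPic_mk (d : ℕ) [NeZero d] (h : N * d ∣ M)
    (D : Divisor.degZero (K := Qb) (F := modularFunctionFieldBar N)) :
    degPic d h (Pic0.mk D) =
      Pic0.mk ⟨Divisor.pullbackAlong (degBar d h) (degBar_isIntegral d h) D,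
        Divisor.pullbackAlong_mem_degZero (degBar d h) (degBar_isIntegral d h)
          (degBar_fundamentalIdentity d h) D.2⟩ := rfl

theorem degPic_mem_torsion (d : ℕ) [NeZero d] (h : N * d ∣ M) {n : ℕ} {x : JZero N}
    (hx : x ∈ Pic0.torsion Qb (modularFunctionFieldBar N) n) :
    degPic d h x ∈ Pic0.torsion Qb (modularFunctionFieldBar M) n := by
  rw [Pic0.mem_torsion] at hx ⊢
  rw [← map_zsmul, hx, map_zero]

theorem intertwinesAlong_degBar (d : ℕ) [NeZero d] (h : N * d ∣ M) (σ : Qb ≃ₐ[ℚ] Qb) :
    SemilinearAut.IntertwinesAlong (degBar d h).toRingHom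
      (arithmeticGalois (modularFunctionFieldFull N) σ)
      (arithmeticGalois (modularFunctionFieldFull M) σ) := fun x => by
  apply Subtype.ext
  rw [coe_arithmeticGalois_smul, AlgHom.toRingHom_eq_coe, RingHom.coe_coe, coe_degBar, coe_degBar,
    coe_arithmeticGalois_smul, ModularCurve.coeffMap_qExpand]

/-- Pullback along a degeneracy map commutes with Galois. -/
theorem degPic_galois_smul (d : ℕ) [NeZero d] (h : N * d ∣ M) (σ : Qb ≃ₐ[ℚ] Qb) (x : JZero N) :
    degPic d h (σ • x) = σ • degPic d h x := by
  obtain ⟨D, rfl⟩ := Pic0.mk_surjective x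
  rw [galois_smul_pic0_def, galois_smul_pic0_def, SemilinearAut.pic0_smul_mk, degPic_mk, degPic_mk,
    SemilinearAut.pic0_smul_mk]
  exact congrArg Pic0.mk (Subtype.ext
    (Kronecker.pullbackAlong_smul _ _ (intertwinesAlong_degBar d h σ) _))

end FLTAgent.Degen
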