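import Fermat.Agent.Degen.Basic

/-!
# Degeneracy maps on cusp forms of weight two

`degForm d` is `f ↦ d f(d z)`, the slash action of `diag (d, 1)`, from level `N` to level `M`
for `N * d ∣ M`. Substituting `w = d z` in the path integrals shows that periods intertwine it
with pullback of characters: `periodMap_degForm`, and `degH_ppH` for the period isomorphism of
pairs of forms.
-/

set_option autoImplicit false
set_option linter.unusedSectionVars false

open CongruenceSubgroup ModularCurve ModularCurve.Period UpperHalfPlane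
open scoped MatrixGroups ModularForm
open FLTAgent.HeckeH (M2 matOf)

noncomputable section

namespace FLTAgent.Degen

theorem heckeDiagMatrix_eq_glM_dMat (d : ℕ) [NeZero d] :
    ModularForm.heckeDiagMatrix d = HeckeH.glM (dMat d) det_dMat := by
  refine Units.ext ?_
  rw [ModularForm.val_heckeDiagMatrix (NeZero.ne d), HeckeH.val_glM, dMat]
  ext a b
  fin_cases a <;> fin_cases b <;> simp

theorem heckeDiag_mul_mapGL {N M : ℕ} (d : ℕ) [NeZero d] (h : N * d ∣ M) (γ : Gamma0 M) :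
    ModularForm.heckeDiagMatrix d * Matrix.SpecialLinearGroup.mapGL ℝ (γ : SL(2, ℤ)) =
      Matrix.SpecialLinearGroup.mapGL ℝ ((degHom d h γ : Gamma0 N) : SL(2, ℤ)) *
        ModularForm.heckeDiagMatrix d := by
  rw [heckeDiagMatrix_eq_glM_dMat]
  refine Units.ext ?_
  rw [Units.val_mul, Units.val_mul, HeckeH.val_glM,
    Matrix.SpecialLinearGroup.mapGL_coe_matrix, Matrix.SpecialLinearGroup.mapGL_coe_matrix]
  have h2 := congrArg (fun X : M2 => X.map (Int.castRingHom ℝ)) (dMat_mul_degHom d h γ)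
  simp only [Matrix.map_mul] at h2
  exact h2

theorem exists_heckeDiag_eq_map (d : ℕ) [NeZero d] :
    ∃ g : GL (Fin 2) ℚ,
      ModularForm.heckeDiagMatrix d = Matrix.GeneralLinearGroup.map (Rat.castHom ℝ) g := by
  refine ⟨Matrix.GeneralLinearGroup.mkOfDetNeZero !![(d : ℚ), 0; 0, 1]
    (by rw [Matrix.det_fin_two_of]; simp [NeZero.ne d]), ?_⟩
  refine Units.ext ?_
  rw [ModularForm.val_heckeDiagMatrix (NeZero.ne d)]
  ext i j
  fin_cases i <;> fin_cases j <;> simp [Matrix.GeneralLinearGroup.mkOfDetNeZero]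

variable {N M : ℕ} [NeZero N] [NeZero M]

/-- A form of level `N` slashed by `γ ∈ Γ₀(N)`. -/
theorem slash_gamma0 (f : CuspForm (Gamma0 N) 2) (γ : Gamma0 N) :
    (⇑f : ℍ → ℂ) ∣[(2 : ℤ)] (Matrix.SpecialLinearGroup.mapGL ℝ (γ : SL(2, ℤ))) = ⇑f :=
  SlashInvariantFormClass.slash_action_eq f _ (Subgroup.mem_map_of_mem _ γ.2)

theorem isCusp_gamma0_iff {c : OnePoint ℝ} :
    IsCusp c ((Gamma0 N).map (Matrix.SpecialLinearGroup.mapGL ℝ)) ↔
      IsCusp c (MonoidHom.range (Matrix.SpecialLinearGroup.mapGL (R := ℤ) (n := Fin 2) ℝ)) :=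
  Subgroup.IsArithmetic.isCusp_iff_isCusp_SL2Z _

/-- `f ↦ d f(d z)`. -/
def degForm (d : ℕ) [NeZero d] (h : N * d ∣ M) (f : CuspForm (Gamma0 N) 2) :
    CuspForm (Gamma0 M) 2 where
  toFun := (⇑f : ℍ → ℂ) ∣[(2 : ℤ)] ModularForm.heckeDiagMatrix d
  slash_action_eq' γ hγ := by
    obtain ⟨g, hg, rfl⟩ := Subgroup.mem_map.mp hγ
    rw [← SlashAction.slash_mul, heckeDiag_mul_mapGL d h ⟨g, hg⟩, SlashAction.slash_mul,
      slash_gamma0]
  holo' := (CuspFormClass.holo f).slash 2 _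
  zero_at_cusps' {c} hc := by
    obtain ⟨g, hg⟩ := exists_heckeDiag_eq_map d
    show OnePoint.IsZeroAt c ((⇑f : ℍ → ℂ) ∣[(2 : ℤ)] ModularForm.heckeDiagMatrix d) 2
    rw [hg]
    refine OnePoint.IsZeroAt.smul_iff.mp (CuspFormClass.zero_at_cusps f ?_)
    rw [isCusp_gamma0_iff, isCusp_SL2Z_iff] at hc ⊢
    obtain ⟨c, rfl⟩ := hc
    exact ⟨g • c, by rw [← Rat.coe_castHom, OnePoint.map_smul]⟩

@[simp] theorem coe_degForm (d : ℕ) [NeZero d] (h : N * d ∣ M) (f : CuspForm (Gamma0 N) 2) :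
    ⇑(degForm d h f) = (⇑f : ℍ → ℂ) ∣[(2 : ℤ)] ModularForm.heckeDiagMatrix d := rfl

/-- The values of `degForm`: `d f(d τ)`. -/
theorem degForm_apply (d : ℕ) [NeZero d] (h : N * d ∣ M) (f : CuspForm (Gamma0 N) 2) (τ : ℍ) :
    degForm d h f τ = (d : ℂ) * f (ModularForm.heckeDiagMatrix d • τ) := by
  rw [coe_degForm, ModularForm.slash_heckeDiagMatrix_apply 2 (NeZero.ne d)]
  norm_num

theorem degForm_one (h : N * 1 ∣ M) (f : CuspForm (Gamma0 N) 2) :
    (⇑(degForm 1 h f) : ℍ → ℂ) = ⇑f := by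
  funext τ
  rw [degForm_apply]
  have e : ModularForm.heckeDiagMatrix 1 • τ = τ := by
    refine UpperHalfPlane.ext ?_
    rw [ModularForm.coe_heckeDiagMatrix_smul one_ne_zero, Nat.cast_one, one_mul]
  rw [e, Nat.cast_one, one_mul]

/-- Periods intertwine the degeneracy maps. -/
theorem periodMap_degForm (d : ℕ) [NeZero d] (h : N * d ∣ M) (f : CuspForm (Gamma0 N) 2) :
    periodMap M (degForm d h f) =
      (periodMap N f).comp (MonoidHom.toAdditive (degHom d h)) := by
  obtain ⟨F, hF⟩ := Period.exists_hasEquivariantPrimitive f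
  refine AddMonoidHom.ext fun γ => ?_
  obtain ⟨γ, rfl⟩ := Additive.ofMul.surjective γ
  have hG : ∀ τ : ℍ, HasDerivAt ((fun z => F (ModularForm.heckeDiagMatrix d • z)) ∘ ofComplex)
      (degForm d h f τ) (τ : ℂ) := fun τ => by
    rw [degForm_apply]
    exact HeckeH.hasDerivAt_translate_heckeDiagMatrix hF.1 (NeZero.ne d) τ
  rw [Period.periodMap_eq_sub _ hG γ UpperHalfPlane.I]
  show _ = periodMap N f (Additive.ofMul (degHom d h γ))
  rw [Period.periodMap_eq_sub _ hF.1 (degHom d h γ)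
    (ModularForm.heckeDiagMatrix d • UpperHalfPlane.I)]
  have e : ModularForm.heckeDiagMatrix d • ((γ : SL(2, ℤ)) • UpperHalfPlane.I) =
      ((degHom d h γ : Gamma0 N) : SL(2, ℤ)) •
        (ModularForm.heckeDiagMatrix d • UpperHalfPlane.I) :=
    ((mul_smul (ModularForm.heckeDiagMatrix d)
        (Matrix.SpecialLinearGroup.mapGL ℝ (γ : SL(2, ℤ))) UpperHalfPlane.I).symm.trans
      (congrArg (· • UpperHalfPlane.I) (heckeDiag_mul_mapGL d h γ))).trans (mul_smul _ _ _)
  simp only [e]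

/-- The period isomorphism intertwines the degeneracy maps. -/
theorem degH_ppH (d : ℕ) [NeZero d] (h : N * d ∣ M)
    (p : CuspForm (Gamma0 N) 2 × CuspForm (Gamma0 N) 2) :
    degH ℂ ℂ d h (HeckeH.ppH N p) = HeckeH.ppH M (degForm d h p.1, degForm d h p.2) := by
  obtain ⟨f, g⟩ := p
  have hc : ∀ (φ : Period.H N ℂ ℂ) (γ : Gamma0 M),
      (φ : Additive (Gamma0 N) →+ ℂ) (Additive.ofMul (degHom d h (jConjGamma0 M γ))) =
        (φ : Additive (Gamma0 N) →+ ℂ) (Additive.ofMul (jConjGamma0 N (degHom d h γ))) :=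
    fun φ γ => (DFunLike.congr_fun (congrArg Subtype.val (degH_jH (R := ℂ) d h φ))
      (Additive.ofMul γ)).symm
  refine Subtype.ext (AddMonoidHom.ext fun γ => ?_)
  obtain ⟨γ, rfl⟩ := Additive.ofMul.surjective γ
  rw [degH_apply, HeckeH.coe_ppH, HeckeH.coe_ppH, Period.periodHomPair_apply,
    Period.periodHomPair_apply, periodMap_degForm, periodMap_degForm]
  simp only [AddMonoidHom.add_apply, AddMonoidHom.sub_apply, charInvolution_apply,
    AddMonoidHom.comp_apply]
  have h1 := hc ⟨periodMap N f, Period.periodMap_mem_H f⟩ γ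
  have h2 := hc ⟨periodMap N g, Period.periodMap_mem_H g⟩ γ
  simp only [toMul_ofMul] at h1 h2 ⊢
  rw [← h1, ← h2]
  rfl

end FLTAgent.Degen
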