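import Fermat.Agent.Degen.Forms

/-!
# Elementary facts about oldforms

`oldforms_injective`: for `q` prime to `M` no nonzero pair of forms of level `M` satisfies
`f + g | diag (q, 1) = 0` (such a relation gives invariance under a scaling by `q²`, and
`eq_zero_of_scaling` kills forms with such a scaling). `oldforms_common`: for forms of level
`q M` the same relation forces `g` to have level `M`, as `g` is then invariant under
`(1, 0; M, 1)`, which together with `Γ₀(q M)` generates `Γ₀(M)` (`exists_levelM_of_invariant`).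
-/

set_option autoImplicit false
set_option linter.unusedSectionVars false

open CongruenceSubgroup ModularCurve ModularCurve.Period UpperHalfPlane Filter Topology
open scoped MatrixGroups ModularForm
open FLTAgent.HeckeH (M2 matOf mkGamma0)
open Matrix.SpecialLinearGroup (mapGL)

noncomputable section

namespace FLTAgent.Degen

/-- A scalar matrix acts trivially in weight two. -/
theorem slash_scalar {q : ℕ} [NeZero q] (S : GL (Fin 2) ℝ)
    (hS : (S : Matrix (Fin 2) (Fin 2) ℝ) = !![(q : ℝ), 0; 0, (q : ℝ)]) (f : ℍ → ℂ) :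
    f ∣[(2 : ℤ)] S = f := by
  funext τ
  have hq : (0 : ℝ) < q := Nat.cast_pos.mpr (Nat.pos_of_ne_zero (NeZero.ne q))
  have hdet : (S.det : ℝ) = q * q := by
    rw [Matrix.GeneralLinearGroup.val_det_apply, hS, Matrix.det_fin_two_of]; ring
  have hpos : 0 < (S.det : ℝ) := by rw [hdet]; positivity
  rw [ModularForm.slash_apply, UpperHalfPlane.σ, if_pos hpos, hdet]
  have hsmul : S • τ = τ := by
    refine UpperHalfPlane.ext ?_
    rw [UpperHalfPlane.coe_smul_of_det_pos hpos]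
    simp [UpperHalfPlane.num, UpperHalfPlane.denom, hS]
    rw [mul_div_assoc, mul_div_cancel₀]
    exact_mod_cast (NeZero.ne q)
  rw [hsmul, show UpperHalfPlane.denom S τ = (q : ℂ) by simp [UpperHalfPlane.denom, hS]]
  rw [abs_of_pos (by positivity : (0 : ℝ) < (q : ℝ) * q)]
  have hq' : (q : ℂ) ≠ 0 := Nat.cast_ne_zero.mpr (NeZero.ne q)
  simp
  field_simp

/-- A cusp form of period one with `f(z) = c f(C z)`, `C ≥ 2`, vanishes. -/
theorem eq_zero_of_scaling {N : ℕ} [NeZero N] (f : CuspForm (Gamma0 N) 2) {C : ℕ} (hC : 2 ≤ C)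
    (h : ∀ τ : ℍ, f τ = (C : ℂ) * f (ModularForm.heckeDiagMatrix C • τ)) : f = 0 := by
  have hdec : (⇑f : ℍ → ℂ) =O[atImInfty] fun τ : ℍ => Real.exp (-2 * Real.pi * τ.im / 1) :=
    CuspFormClass.exp_decay_atImInfty (f := f) one_pos
      (by simp)
  obtain ⟨K, hK⟩ := hdec.bound
  rw [Filter.Eventually, UpperHalfPlane.atImInfty_mem] at hK
  obtain ⟨B, hB⟩ := hK
  have hC0 : C ≠ 0 := by omega
  ext τ
  set y := τ.im
  have hy : 0 < y := τ.im_pos
  have hiter : ∀ k : ℕ, ∃ w : ℍ, w.im = (C : ℝ) ^ k * y ∧ f τ = ((C : ℂ) ^ k) * f w := by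
    intro k
    induction k with
    | zero => exact ⟨τ, by simp [y], by simp⟩
    | succ k ih =>
      obtain ⟨w, hw, hf⟩ := ih
      refine ⟨ModularForm.heckeDiagMatrix C • w, ?_, ?_⟩
      · rw [← UpperHalfPlane.coe_im, ModularForm.coe_heckeDiagMatrix_smul hC0, Complex.mul_im]
        simp [hw, pow_succ]; ring
      · rw [hf, h w, pow_succ]; ring
  have hCk : Tendsto (fun k : ℕ => (C : ℝ) ^ k) atTop atTop :=
    tendsto_pow_atTop_atTop_of_one_lt (by exact_mod_cast (by omega : 1 < C))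
  have hxk : Tendsto (fun k : ℕ => 2 * Real.pi * ((C : ℝ) ^ k * y)) atTop atTop :=
    ((hCk.atTop_mul_const hy)).const_mul_atTop (by positivity)
  have hlim : Tendsto (fun k : ℕ => K * ((2 * Real.pi * ((C : ℝ) ^ k * y)) ^ 1 *
      Real.exp (-(2 * Real.pi * ((C : ℝ) ^ k * y))) / (2 * Real.pi * y))) atTop (𝓝 0) := by
    have := ((Real.tendsto_pow_mul_exp_neg_atTop_nhds_zero 1).comp hxk).div_const
      (2 * Real.pi * y) |>.const_mul K
    simpa using this
  have hbound : ∀ᶠ k : ℕ in atTop, ‖f τ‖ ≤ K * ((2 * Real.pi * ((C : ℝ) ^ k * y)) ^ 1 *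
      Real.exp (-(2 * Real.pi * ((C : ℝ) ^ k * y))) / (2 * Real.pi * y)) := by
    filter_upwards [(hCk.atTop_mul_const hy).eventually_ge_atTop B] with k hk
    obtain ⟨w, hw, hf⟩ := hiter k
    have h1 := hB w (by rw [hw]; exact hk)
    simp only [Set.mem_ofPred_eq, Real.norm_eq_abs, abs_of_pos (Real.exp_pos _)] at h1
    rw [hw] at h1
    rw [hf, norm_mul, norm_pow, Complex.norm_natCast]
    refine (mul_le_mul_of_nonneg_left h1 (by positivity)).trans (le_of_eq ?_)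
    rw [show -2 * Real.pi * ((C : ℝ) ^ k * y) / 1 = -(2 * Real.pi * ((C : ℝ) ^ k * y)) by ring]
    field_simp
  simpa using ge_of_tendsto hlim hbound

variable {q M : ℕ} [NeZero q] [NeZero M]

theorem heckeDiag_eq_of_entries {d : ℕ} [NeZero d] (X : GL (Fin 2) ℝ)
    (h : (X : Matrix (Fin 2) (Fin 2) ℝ) = !![(d : ℝ), 0; 0, 1]) :
    X = ModularForm.heckeDiagMatrix d := by
  refine Units.ext ?_
  rw [h, ModularForm.val_heckeDiagMatrix (NeZero.ne d)]

/-- No nonzero pair of forms of level `M` prime to `q` has `f + g | diag (q, 1) = 0`. -/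
theorem oldforms_injective (hq : q.Coprime M) (hq2 : 2 ≤ q) {f g : CuspForm (Gamma0 M) 2}
    (h : ∀ τ, f τ + ((⇑g : ℍ → ℂ) ∣[(2 : ℤ)] ModularForm.heckeDiagMatrix q) τ = 0) :
    f = 0 ∧ g = 0 := by
  set D : GL (Fin 2) ℝ := ModularForm.heckeDiagMatrix q with hD
  have hfun : (⇑f : ℍ → ℂ) = -((⇑g : ℍ → ℂ) ∣[(2 : ℤ)] D) :=
    funext fun τ => eq_neg_of_add_eq_zero_left (h τ)
  have hgD : (⇑f : ℍ → ℂ) ∣[(2 : ℤ)] D⁻¹ = -(⇑g : ℍ → ℂ) := by
    rw [hfun, SlashAction.neg_slash, ← SlashAction.slash_mul, mul_inv_cancel, SlashAction.slash_one]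
  obtain ⟨m, a', hm⟩ : ∃ m a' : ℤ, (q : ℤ) * a' - m * M = 1 := by
    obtain ⟨u, v, huv⟩ : IsCoprime (q : ℤ) (M : ℤ) :=
      Int.isCoprime_iff_gcd_eq_one.mpr (by simpa [Int.gcd] using hq)
    exact ⟨-v, u, by linear_combination huv⟩
  let γ₁ : Gamma0 M := mkGamma0 1 0 (q * M) 1 (by ring) (dvd_mul_left _ _)
  let γ₂ : Gamma0 M := mkGamma0 (q : ℤ) (-m) (-(M : ℤ)) a' (by linear_combination hm)
    (dvd_neg.mpr dvd_rfl)
  let T : Gamma0 M := mkGamma0 1 m 0 1 (by ring) (dvd_zero _)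
  set X : GL (Fin 2) ℝ := mapGL ℝ (γ₂ : SL(2, ℤ)) * D⁻¹ * mapGL ℝ (T : SL(2, ℤ)) * D *
    mapGL ℝ (γ₁ : SL(2, ℤ)) with hX
  have hfX : (⇑f : ℍ → ℂ) ∣[(2 : ℤ)] X = ⇑f := by
    simp only [hX, SlashAction.slash_mul, slash_gamma0, hgD, SlashAction.neg_slash]
    rw [← SlashAction.neg_slash, ← hfun, slash_gamma0]
  have hqR : (q : ℝ) ≠ 0 := Nat.cast_ne_zero.mpr (NeZero.ne q)
  let S : GL (Fin 2) ℝ := Matrix.GeneralLinearGroup.mkOfDetNeZero !![(q : ℝ), 0; 0, (q : ℝ)]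
    (by rw [Matrix.det_fin_two_of]; simp [hqR])
  have hDinv : ((D⁻¹ : GL (Fin 2) ℝ) : Matrix (Fin 2) (Fin 2) ℝ) = !![(q : ℝ)⁻¹, 0; 0, 1] :=
    Units.inv_eq_of_mul_eq_one_right (by
      rw [hD, ModularForm.val_heckeDiagMatrix (NeZero.ne q), Matrix.mul_fin_two]
      simp [hqR, Matrix.one_fin_two])
  have hmR : (q : ℝ) * (a' : ℝ) - (m : ℝ) * (M : ℝ) = 1 := by exact_mod_cast hm
  have : NeZero (q * q) := ⟨mul_ne_zero (NeZero.ne q) (NeZero.ne q)⟩
  have hXS : X * S = ModularForm.heckeDiagMatrix (q * q) := by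
    refine heckeDiag_eq_of_entries _ ?_
    have hmap : ∀ (a b c d : ℤ) (hdet : a * d - b * c = 1) (hc : (M : ℤ) ∣ c),
        ((mapGL ℝ ((mkGamma0 (N := M) a b c d hdet hc : Gamma0 M) : SL(2, ℤ)) : GL (Fin 2) ℝ) :
          Matrix (Fin 2) (Fin 2) ℝ) = !![(a : ℝ), (b : ℝ); (c : ℝ), (d : ℝ)] := by
      intro a b c d hdet hc
      rw [Matrix.SpecialLinearGroup.mapGL_coe_matrix]
      ext i j
      fin_cases i <;> fin_cases j <;> rfl
    simp only [hX, γ₁, γ₂, T, S, Units.val_mul, hDinv, hmap]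
    rw [hD, ModularForm.val_heckeDiagMatrix (NeZero.ne q)]
    simp only [Matrix.GeneralLinearGroup.mkOfDetNeZero, Matrix.mul_fin_two]
    push_cast
    ext i j
    fin_cases i <;> fin_cases j <;> simp <;> field_simp <;>
      first | ring1 | linear_combination hmR | linear_combination (q : ℝ) * hmR | linear_combination -hmR |
        exact Or.inl (by linear_combination (M : ℝ) * hmR)
  have hfix : (⇑f : ℍ → ℂ) ∣[(2 : ℤ)] ModularForm.heckeDiagMatrix (q * q) = ⇑f := by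
    rw [← hXS, SlashAction.slash_mul, hfX]
    exact slash_scalar S rfl _
  have hf0 : f = 0 := by
    refine eq_zero_of_scaling f (C := q * q) (by nlinarith) fun τ => ?_
    conv_lhs => rw [← hfix]
    rw [ModularForm.slash_heckeDiagMatrix_apply 2 (NeZero.ne (q * q))]
    norm_num
  refine ⟨hf0, ?_⟩
  refine CuspForm.ext fun τ => ?_
  have := congrFun hgD τ
  rw [hf0, FunLike.coe_zero, SlashAction.zero_slash] at this
  simpa [eq_comm, neg_eq_zero] using this.symm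

/-- A form of level `q M` invariant under `(1, 0; M, 1)` has level `M`. -/
theorem exists_levelM_of_invariant {N : ℕ} [NeZero N] (hN : N = q * M) (hq : q.Prime)
    (g : CuspForm (Gamma0 N) 2)
    (hg : (⇑g : ℍ → ℂ) ∣[(2 : ℤ)] mapGL ℝ
      ((mkGamma0 (N := M) 1 0 M 1 (by ring) dvd_rfl : Gamma0 M) : SL(2, ℤ)) = ⇑g) :
    ∃ g₀ : CuspForm (Gamma0 M) 2, (⇑g₀ : ℍ → ℂ) = ⇑g := by
  let K : Subgroup SL(2, ℤ) :=
    { carrier := {γ | (⇑g : ℍ → ℂ) ∣[(2 : ℤ)] mapGL ℝ γ = ⇑g}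
      one_mem' := by simp
      mul_mem' := fun {a b} ha hb => by
        simp only [Set.mem_ofPred_eq] at ha hb ⊢
        rw [map_mul, SlashAction.slash_mul, ha, hb]
      inv_mem' := fun {a} ha => by
        simp only [Set.mem_ofPred_eq] at ha ⊢
        conv_lhs => rw [← ha]
        rw [← SlashAction.slash_mul, ← map_mul, mul_inv_cancel, map_one, SlashAction.slash_one] }
  set L : SL(2, ℤ) := ((mkGamma0 (N := M) 1 0 M 1 (by ring) dvd_rfl : Gamma0 M) : SL(2, ℤ))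
    with hL
  have hLK : L ∈ K := hg
  have hNK : Gamma0 N ≤ K := fun γ hγ => slash_gamma0 g ⟨γ, hγ⟩
  have hpow : ∀ k : ℤ, ∃ Lk ∈ K, (Lk : M2) = !![1, 0; k * M, 1] := by
    intro k
    induction k using Int.induction_on with
    | zero => exact ⟨1, one_mem K, by simp [Matrix.one_fin_two]⟩
    | succ i ih =>
      obtain ⟨Lk, h1, h2⟩ := ih
      refine ⟨Lk * L, mul_mem h1 hLK, ?_⟩
      rw [Matrix.SpecialLinearGroup.coe_mul, h2, hL]
      show !![1, 0; (i : ℤ) * M, 1] * !![(1 : ℤ), 0; M, 1] = _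
      rw [Matrix.mul_fin_two]; simp; ring
    | pred i ih =>
      obtain ⟨Lk, h1, h2⟩ := ih
      refine ⟨Lk * L⁻¹, mul_mem h1 (inv_mem hLK), ?_⟩
      rw [Matrix.SpecialLinearGroup.coe_mul, Matrix.SpecialLinearGroup.coe_inv, h2, hL]
      show !![1, 0; -(i : ℤ) * M, 1] * Matrix.adjugate !![(1 : ℤ), 0; M, 1] = _
      rw [Matrix.adjugate_fin_two_of, Matrix.mul_fin_two]; simp; ring
  have key : ∀ γ : SL(2, ℤ), γ ∈ Gamma0 M → ¬ (q : ℤ) ∣ γ 0 0 → γ ∈ K := by
    intro γ hγ hnd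
    obtain ⟨c', hc'⟩ := (ZMod.intCast_zmod_eq_zero_iff_dvd _ M).mp (Gamma0_mem.mp hγ)
    have : Fact q.Prime := ⟨hq⟩
    obtain ⟨k, hk⟩ : ∃ k : ℤ, (q : ℤ) ∣ k * γ 0 0 + c' := by
      refine ⟨(((-(c' : ZMod q)) / (γ 0 0 : ZMod q)).val : ℕ), ?_⟩
      rw [← ZMod.intCast_zmod_eq_zero_iff_dvd]
      push_cast
      rw [ZMod.natCast_zmod_val, div_mul_cancel₀ _ (by
        rwa [Ne, ZMod.intCast_zmod_eq_zero_iff_dvd]), neg_add_cancel]
    obtain ⟨Lk, h1, h2⟩ := hpow k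
    have hmem : Lk * γ ∈ Gamma0 N := by
      rw [Gamma0_mem, ZMod.intCast_zmod_eq_zero_iff_dvd, Matrix.SpecialLinearGroup.coe_mul, h2,
        Matrix.mul_apply, Fin.sum_univ_two, hN]
      obtain ⟨e, he⟩ := hk
      refine ⟨e, ?_⟩
      simp [hc']
      linear_combination (M : ℤ) * he
    exact (mul_mem_cancel_left h1).mp (hNK hmem)
  have hMK : Gamma0 M ≤ K := by
    intro γ hγ
    by_cases hnd : (q : ℤ) ∣ γ 0 0
    · let T : Gamma0 N := mkGamma0 1 1 0 1 (by ring) (dvd_zero _)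
      have hT : (T : SL(2, ℤ)) ∈ Gamma0 M :=
        Period.gamma0_le_gamma0_of_dvd (hN ▸ dvd_mul_left M q) T.2
      refine (mul_mem_cancel_left (hNK T.2)).mp (key _ (mul_mem hT hγ) ?_)
      intro hd
      have he : ((T : SL(2, ℤ)) * γ) 0 0 = γ 0 0 + γ 1 0 := by
        rw [Matrix.SpecialLinearGroup.coe_mul, Matrix.mul_apply, Fin.sum_univ_two]
        simp [T, mkGamma0]
      rw [he, dvd_add_right hnd] at hd
      have h1 : IsUnit (q : ℤ) := isUnit_of_dvd_one (by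
        rw [← γ.2, Matrix.det_fin_two]
        exact dvd_sub (hnd.mul_right _) (hd.mul_left _))
      rw [Int.isUnit_iff] at h1
      have := hq.two_le
      omega
    · exact key γ hγ hnd
  exact ⟨{ toFun := ⇑g
           slash_action_eq' := fun γ hγ => by
             obtain ⟨x, hx, rfl⟩ := Subgroup.mem_map.mp hγ
             exact hMK hx
           holo' := CuspFormClass.holo g
           zero_at_cusps' := fun {c} hc =>
             CuspFormClass.zero_at_cusps g (isCusp_gamma0_iff.mpr (isCusp_gamma0_iff.mp hc)) }, rfl⟩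

/-- A pair of forms of level `q M` with `f + g | diag (q, 1) = 0` has `g` of level `M`. -/
theorem oldforms_common {N : ℕ} [NeZero N] (hN : N = q * M) (hq : q.Prime)
    {f g : CuspForm (Gamma0 N) 2}
    (h : ∀ τ, f τ + ((⇑g : ℍ → ℂ) ∣[(2 : ℤ)] ModularForm.heckeDiagMatrix q) τ = 0) :
    ∃ g₀ : CuspForm (Gamma0 M) 2, (⇑g₀ : ℍ → ℂ) = ⇑g := by
  refine exists_levelM_of_invariant hN hq g ?_
  set D : GL (Fin 2) ℝ := ModularForm.heckeDiagMatrix q with hD
  let γ : Gamma0 N := mkGamma0 1 0 N 1 (by ring) dvd_rfl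
  let L : Gamma0 M := mkGamma0 1 0 M 1 (by ring) dvd_rfl
  have hdvd : M * q ∣ N := by rw [hN, mul_comm]
  have hθ : degHom q hdvd γ = L := by
    refine HeckeH.matOf_injective (HeckeH.mul_right_cancel_of_det_ne (det_dMat (d := q)) ?_)
    rw [← dMat_mul_degHom, dMat, HeckeH.matOf_mkGamma0, HeckeH.matOf_mkGamma0, Matrix.mul_fin_two,
      Matrix.mul_fin_two, hN]
    simp [mul_comm]
  have hcomm := heckeDiag_mul_mapGL q hdvd γ
  rw [hθ] at hcomm
  have hfun : (⇑g : ℍ → ℂ) ∣[(2 : ℤ)] D = -(⇑f : ℍ → ℂ) :=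
    funext fun τ => eq_neg_of_add_eq_zero_right (h τ)
  have h3 : ((⇑g : ℍ → ℂ) ∣[(2 : ℤ)] mapGL ℝ (L : SL(2, ℤ))) ∣[(2 : ℤ)] D =
      (⇑g : ℍ → ℂ) ∣[(2 : ℤ)] D := by
    rw [← SlashAction.slash_mul, ← hcomm, SlashAction.slash_mul, hfun, SlashAction.neg_slash,
      slash_gamma0]
  have h4 := congrArg (fun u : ℍ → ℂ => u ∣[(2 : ℤ)] D⁻¹) h3
  simpa only [← SlashAction.slash_mul, mul_inv_cancel_right, mul_inv_cancel,
    SlashAction.slash_one] using h4

end FLTAgent.Degen
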