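import Fermat.Agent.Degen.Field
import Fermat.Agent.Degen.Forms

/-!
# Pullback on torsion points is `degH` on characters

`translateD d f` is `f(d z)`; it takes functions with multiplier `c` to functions with
multiplier `c ∘ degHom` (`isMult_translateD`). Comparing the divisors of `n`-th powers at points
and cusps gives `jTorsionEquiv_degPic`: under the identification of `n`-torsion with characters
the pullback `degPic` becomes `degH`.
-/

set_option autoImplicit false
set_option linter.style.haveILetI false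

open UpperHalfPlane CongruenceSubgroup Filter Topology ModularCurve AlgebraicCurve
open scoped MatrixGroups

noncomputable section

namespace FLTAgent.Degen

open FLTAgent.Modular
open FLTAgent.HeckeH (M2 matOf glM HasGrowth GrowsAtCusps)

local notation "Qb" => AlgebraicClosure ℚ

variable {N M : ℕ} [NeZero N] [NeZero M]

theorem det_dMat_pos {d : ℕ} [NeZero d] : 0 < (dMat d).det := by
  rw [dMat, Matrix.det_fin_two_of]
  simpa using Nat.pos_of_ne_zero (NeZero.ne d)

theorem detVal_diag_pos (d : ℕ) [NeZero d] :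
    0 < ((ModularForm.heckeDiagMatrix d : GL (Fin 2) ℝ) : Matrix (Fin 2) (Fin 2) ℝ).det :=
  (Matrix.GeneralLinearGroup.val_det_apply (ModularForm.heckeDiagMatrix d)) ▸
    ModularForm.det_heckeDiagMatrix_pos d

/-- `f (d z)`. -/
def translateD (d : ℕ) (f : ℍ → ℂ) : ℍ → ℂ := fun z => f (ModularForm.heckeDiagMatrix d • z)

theorem growth_translateD (d : ℕ) [NeZero d] {f : ℍ → ℂ} (hf : GrowsAtCusps f) (γ : SL(2, ℤ)) :
    ∃ κ : ℝ, HasGrowth (fun z => translateD d f (γ • z)) κ := by
  obtain ⟨κ, hκ⟩ := hf.comp_glM (dMat d) det_dMat det_dMat_pos γ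
  exact ⟨κ, by simpa only [translateD, heckeDiagMatrix_eq_glM_dMat] using hκ⟩

/-- `f (d z)` has multiplier the composition of that of `f` with `degHom`. -/
theorem isMult_translateD (d : ℕ) [NeZero d] (h : N * d ∣ M) {n : ℕ} [NeZero n]
    {φ : Additive (Gamma0 N) →+ ZMod n} {f : ℍ → ℂ} (hf : IsMult N f (Torsion.expChar φ))
    {D : Divisor ℂ (FC N)} (hD : Torsion.HasDivisor N f D) :
    IsMult M (translateD d f)
      (Torsion.expChar (φ.comp (MonoidHom.toAdditive (degHom d h)))) where
  mero := hf.mero.comp_glSmul (detVal_diag_pos d)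
  meroCusp γ := by
    obtain ⟨κ, hκ⟩ := growth_translateD d (HeckeH.growsAtCusps_of_hasDivisor hD) γ
    exact hκ.exists_bounded (Nat.cast_pos.mpr (Nat.pos_of_ne_zero (NeZero.ne M)))
  nonzero := by
    refine ⟨UpperHalfPlane.I, ?_⟩
    unfold translateD
    rw [meromorphicOrderAt_comp_glSmul f (detVal_diag_pos d), hD.order]
    exact WithTop.coe_ne_top
  smul γ z := by
    show f (ModularForm.heckeDiagMatrix d • ((γ : SL(2, ℤ)) • z)) = _
    have e : ModularForm.heckeDiagMatrix d • ((γ : SL(2, ℤ)) • z) =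
        ((degHom d h γ : Gamma0 N) : SL(2, ℤ)) • (ModularForm.heckeDiagMatrix d • z) :=
      ((mul_smul (ModularForm.heckeDiagMatrix d)
          (Matrix.SpecialLinearGroup.mapGL ℝ (γ : SL(2, ℤ))) z).symm.trans
        (congrArg (· • z) (heckeDiag_mul_mapGL d h γ))).trans (mul_smul _ _ _)
    rw [e, hf.smul, Torsion.coe_expChar, Torsion.coe_expChar]
    rfl

/-- Evaluation turns `degBar d` into `f ↦ f (d z)`. -/
theorem ev_embFC_degBar (ι : Qb →+* ℂ) (d : ℕ) [NeZero d] (h : N * d ∣ M)
    (y : modularFunctionFieldBar N) :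
    ev ((Torsion.embFC M ι (degBar d h y) : FC M) : LaurentSeries ℂ) =
      translateD d (ev ((Torsion.embFC N ι y : FC N) : LaurentSeries ℂ)) := by
  rw [Torsion.coe_embFC, coe_degBar, ModularCurve.coeffMap_qExpand, ← Torsion.coe_embFC]
  exact ev_eq_of_isMero ((isMero_ev _).comp_glSmul (detVal_diag_pos d))
    ((hasQExp_ev _).comp_mul d
      fun z => ModularForm.coe_heckeDiagMatrix_smul (NeZero.ne d) z)

set_option maxHeartbeats 1000000 in
set_option synthInstance.maxHeartbeats 200000 in
/-- Pullback along a degeneracy map is `degH` on characters. -/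
theorem jTorsionEquiv_degPic (ι : Qb →+* ℂ) (d : ℕ) [NeZero d] (h : N * d ∣ M) {n : ℕ} [NeZero n]
    (x : Pic0.torsion Qb (modularFunctionFieldBar N) n) :
    Torsion.jTorsionEquiv M ι n ⟨degPic d h (x : JZero N), degPic_mem_torsion d h x.2⟩ =
      degH (ZMod n) (ZMod n) d h (Torsion.jTorsionEquiv N ι n x) := by
  obtain ⟨x, hxn⟩ := x
  obtain ⟨D, rfl⟩ := Pic0.mk_surjective x
  set E : Divisor.degZero (K := Qb) (F := modularFunctionFieldBar M) :=
    ⟨Divisor.pullbackAlong (degBar d h) (degBar_isIntegral d h) D,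
      Divisor.pullbackAlong_mem_degZero (degBar d h) (degBar_isIntegral d h)
        (degBar_fundamentalIdentity d h) D.2⟩ with hE
  have hnD : n • (D : Divisor Qb (modularFunctionFieldBar N)) ∈
      Divisor.principal (K := Qb) (F := modularFunctionFieldBar N) := by
    have h0 : Pic0.mk (n • D) = 0 := by
      have := Pic0.mem_torsion.mp hxn
      rw [natCast_zsmul] at this
      exact this
    have := (QuotientAddGroup.eq_zero_iff _).mp h0
    simpa [AddSubgroup.mem_addSubgroupOf] using this
  obtain ⟨y, hy0, hy⟩ := hnD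
  have hy'0 : degBar d h y ≠ 0 :=
    (map_ne_zero_iff _ (degBar d h).toRingHom.injective).mpr hy0
  have hnE : ∀ w, (n • (E : Divisor Qb (modularFunctionFieldBar M))) w = w.ord (degBar d h y) := by
    intro w
    have h1 : n • (E : Divisor Qb (modularFunctionFieldBar M)) =
        Divisor.pullbackAlong (degBar d h) (degBar_isIntegral d h)
          (n • (D : Divisor Qb (modularFunctionFieldBar N))) := by
      show n • Divisor.pullbackAlong (degBar d h) (degBar_isIntegral d h)
        (D : Divisor Qb (modularFunctionFieldBar N)) = _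
      rw [map_nsmul]
    rw [h1]
    refine (Divisor.pullbackAlong_apply (degBar d h) (degBar_isIntegral d h) _ w).trans ?_
    rw [hy]
    exact (Place.ord_restrictAlong (degBar d h) (degBar_isIntegral d h) w y).symm
  have hDC : n • Torsion.divExt ι (D : Divisor Qb (modularFunctionFieldBar N)) ∈
      Divisor.principal (K := ℂ) (F := FC N) := by
    rw [← map_nsmul, Torsion.divExt_mem_principal_iff]
    exact ⟨y, hy0, hy⟩
  obtain ⟨φ, hφ, f, hfm, hfD⟩ := Torsion.exists_mult_of_nsmul_principal hDC
  have hx1 : Pic0.mk (Torsion.degZeroExt ι D) ∈ Pic0.torsion ℂ (FC N) n :=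
    (Torsion.picExtTorsion ι n ⟨Pic0.mk D, hxn⟩).2
  have hex : (Torsion.jTorsionEquiv N ι n ⟨Pic0.mk D, hxn⟩ : Additive (Gamma0 N) →+ ZMod n) = φ :=
    Torsion.torsionEquiv_eq (D := Torsion.degZeroExt ι D) hx1 hfm hfD
  have hTφ : φ.comp (MonoidHom.toAdditive (degHom d h)) ∈ Period.H M (ZMod n) (ZMod n) :=
    (degH (ZMod n) (ZMod n) d h ⟨φ, hφ⟩).2
  have hfT := isMult_translateD d h hfm hfD
  obtain ⟨D₀, hD₀, -⟩ := Torsion.exists_divisor_of_mult hTφ hfT
  have hY : Torsion.HasDivisor N (ev ((Torsion.embFC N ι y : FC N) : LaurentSeries ℂ))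
      (n • Torsion.divExt ι (D : Divisor Qb (modularFunctionFieldBar N))) := by
    refine Torsion.hasDivisor_ev ((map_ne_zero_iff _ (Torsion.embFC N ι).injective).mpr hy0)
      fun w => ?_
    rw [← map_nsmul]
    exact HeckeH.divExt_apply_eq_ord ι hy w
  have hY' : Torsion.HasDivisor M (ev ((Torsion.embFC M ι (degBar d h y) : FC M) : LaurentSeries ℂ))
      (n • Torsion.divExt ι (E : Divisor Qb (modularFunctionFieldBar M))) := by
    refine Torsion.hasDivisor_ev ((map_ne_zero_iff _ (Torsion.embFC M ι).injective).mpr hy'0)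
      fun w => ?_
    rw [← map_nsmul]
    exact HeckeH.divExt_apply_eq_ord ι hnE w
  rw [ev_embFC_degBar] at hY'
  have hkey : D₀ = Torsion.degZeroExt ι E := by
    refine Subtype.ext (Finsupp.ext fun v => ?_)
    show (D₀ : Divisor ℂ (FC M)) v = Torsion.divExt ι (E : Divisor Qb (modularFunctionFieldBar M)) v
    have hn : (n : ℤ) ≠ 0 := by exact_mod_cast NeZero.ne n
    rcases place_exhaustive v with ⟨z, rfl⟩ | ⟨γ, rfl⟩
    · have he : (ellOrder M z : ℤ) ≠ 0 := by
        exact_mod_cast (ModularPlaces.ellOrder_pos (N := M) z).ne'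
      have h1 := hD₀.order z
      unfold translateD at h1
      rw [meromorphicOrderAt_comp_glSmul f (detVal_diag_pos d), hfD.order, WithTop.coe_eq_coe] at h1
      have h2 := hY'.order z
      unfold translateD at h2
      rw [meromorphicOrderAt_comp_glSmul _ (detVal_diag_pos d), hY.order, WithTop.coe_eq_coe] at h2
      simp only [Finsupp.smul_apply, nsmul_eq_mul] at h2
      refine mul_left_cancel₀ hn (mul_left_cancel₀ he ?_)
      rw [← h2, mul_left_comm, ← h1]
      ring
    · obtain ⟨κ, hκ⟩ := growth_translateD d (HeckeH.growsAtCusps_of_hasDivisor hfD) γ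
      have h1 := hκ.unique (HeckeH.hasGrowth_of_hasDivisor hD₀ γ)
      have hpow : ∀ (δ : SL(2, ℤ)) (a : ℝ), HasGrowth (fun z => f (δ • z)) a →
          HasGrowth (fun z => ev ((Torsion.embFC N ι y : FC N) : LaurentSeries ℂ) (δ • z))
            (n * a) := by
        intro δ a ha
        rw [ha.unique (HeckeH.hasGrowth_of_hasDivisor hfD δ)]
        have := HeckeH.hasGrowth_of_hasDivisor hY δ
        simpa [Finsupp.smul_apply, mul_div_assoc] using this
      have hκ' : HasGrowth (fun z => f (glM (dMat d) det_dMat • (γ • z))) κ := by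
        simpa only [translateD, heckeDiagMatrix_eq_glM_dMat] using hκ
      have h2 : HasGrowth (fun z => translateD d
          (ev ((Torsion.embFC N ι y : FC N) : LaurentSeries ℂ)) (γ • z)) (n * κ) := by
        simpa only [translateD, heckeDiagMatrix_eq_glM_dMat] using
          HeckeH.hasGrowth_smul_of_pow (HeckeH.growsAtCusps_of_hasDivisor hfD) hpow (dMat d)
            det_dMat det_dMat_pos γ hκ'
      have h3 := h2.unique (HeckeH.hasGrowth_of_hasDivisor hY' γ)
      rw [h1] at h3
      simp only [Finsupp.smul_apply, nsmul_eq_mul, Int.cast_mul, Int.cast_natCast] at h3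
      have hw : (cuspWidth M γ : ℝ) ≠ 0 := by
        exact_mod_cast (HeckeH.cuspWidth_pos (N := M) γ).ne'
      have hn' : (n : ℝ) ≠ 0 := by exact_mod_cast NeZero.ne n
      field_simp at h3
      exact_mod_cast h3
  refine Subtype.ext ?_
  show _ = (Torsion.jTorsionEquiv N ι n ⟨Pic0.mk D, hxn⟩ : Additive (Gamma0 N) →+ ZMod n).comp
    (MonoidHom.toAdditive (degHom d h))
  rw [hex, Torsion.jTorsionEquiv_apply]
  have hx2 : Pic0.mk D₀ ∈ Pic0.torsion ℂ (FC M) n := (Torsion.mk_mem_torsion_of_mult hfT hD₀).1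
  have he : Torsion.picExtTorsion ι n ⟨degPic d h (Pic0.mk D), degPic_mem_torsion d h hxn⟩ =
      ⟨Pic0.mk D₀, hx2⟩ := by
    refine Subtype.ext ?_
    show Torsion.picExt M ι (degPic d h (Pic0.mk D)) = _
    rw [degPic_mk, ← hE, Torsion.picExt_mk, ← hkey]
  rw [he]
  exact Torsion.torsionEquiv_eq hx2 hfT hD₀

end FLTAgent.Degen
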